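/-
S24 block B (skeleton by helper216; proofs of the algebra part by helper265).  TASK S24-B13.
Taylor expansions of functions on `ℍ` at `τ₀` in the disc coordinate
`w = (τ - τ₀) / (τ - conj τ₀)`, i.e. `τ = discInv τ₀ w = (τ₀ - conj τ₀ * w) / (1 - w)`.
-/
import Fermat.Agent.S24.Analytic.Defs

set_option autoImplicit false

namespace Fermat.Agent.S24.B

open UpperHalfPlane Filter Topology
open scoped MatrixGroups Real Manifold

/-- The inverse of the disc coordinate at `τ₀`. -/
noncomputable def discInv (τ₀ : ℍ) (w : ℂ) : ℂ :=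
  ((τ₀ : ℂ) - (starRingEnd ℂ) (τ₀ : ℂ) * w) / (1 - w)

/-- `f` has the Taylor expansion `s` at `τ₀` in the disc coordinate. -/
def HasWExp (τ₀ : ℍ) (f : ℍ → ℂ) (s : PowerSeries ℂ) : Prop :=
  ∀ᶠ w in 𝓝 (0 : ℂ),
    HasSum (fun n : ℕ => PowerSeries.coeff n s * w ^ n) (f (ofComplex (discInv τ₀ w)))

variable {τ₀ : ℍ} {f g : ℍ → ℂ} {s s' : PowerSeries ℂ}

/-! ### algebra part: TASK S24-B13 -/

theorem HasWExp.hasFPowerSeriesAt (h : HasWExp τ₀ f s) :
    HasFPowerSeriesAt (fun w => f (ofComplex (discInv τ₀ w)))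
      (FormalMultilinearSeries.ofScalars ℂ fun n => PowerSeries.coeff n s) 0 := by
  rw [hasFPowerSeriesAt_iff]
  filter_upwards [h] with w hw
  simpa [FormalMultilinearSeries.coeff_ofScalars, mul_comm] using hw

theorem HasWExp.unique (h : HasWExp τ₀ f s) (h' : HasWExp τ₀ f s') : s = s' := by
  have key := h.hasFPowerSeriesAt.eq_formalMultilinearSeries h'.hasFPowerSeriesAt
  ext n
  have := congrArg (fun p => FormalMultilinearSeries.coeff p n) key
  simpa [FormalMultilinearSeries.coeff_ofScalars] using this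

theorem HasWExp.const (c : ℂ) : HasWExp τ₀ (fun _ => c) (PowerSeries.C c) := by
  refine Filter.Eventually.of_forall fun w => ?_
  have : (fun n : ℕ => PowerSeries.coeff n (PowerSeries.C c : PowerSeries ℂ) * w ^ n)
      = fun n : ℕ => if n = 0 then c else 0 := by
    funext n
    rw [PowerSeries.coeff_C]
    split_ifs with hn
    · simp [hn]
    · simp
  rw [this]
  exact hasSum_ite_eq 0 c

theorem HasWExp.add (h : HasWExp τ₀ f s) (h' : HasWExp τ₀ g s') :
    HasWExp τ₀ (f + g) (s + s') := by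
  filter_upwards [h, h'] with w hw hw'
  simpa [add_mul] using hw.add hw'

theorem HasWExp.mul (h : HasWExp τ₀ f s) (h' : HasWExp τ₀ g s') :
    HasWExp τ₀ (f * g) (s * s') := by
  filter_upwards [h, h'] with w hw hw'
  have h1 : Summable fun n : ℕ => ‖PowerSeries.coeff n s * w ^ n‖ := hw.summable.norm
  have h2 : Summable fun n : ℕ => ‖PowerSeries.coeff n s' * w ^ n‖ := hw'.summable.norm
  have hs := summable_norm_sum_mul_antidiagonal_of_summable_norm h1 h2
  have ht := tsum_mul_tsum_eq_tsum_sum_antidiagonal_of_summable_norm h1 h2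
  have hsum : Summable fun n : ℕ => ∑ kl ∈ Finset.HasAntidiagonal.antidiagonal n,
      (PowerSeries.coeff kl.1 s * w ^ kl.1) * (PowerSeries.coeff kl.2 s' * w ^ kl.2) :=
    hs.of_norm
  have heq : (fun n : ℕ => PowerSeries.coeff n (s * s') * w ^ n) = fun n : ℕ =>
      ∑ kl ∈ Finset.HasAntidiagonal.antidiagonal n,
        (PowerSeries.coeff kl.1 s * w ^ kl.1) * (PowerSeries.coeff kl.2 s' * w ^ kl.2) := by
    funext n
    rw [PowerSeries.coeff_mul, Finset.sum_mul]
    refine Finset.sum_congr rfl fun kl hkl => ?_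
    rw [← Finset.HasAntidiagonal.mem_antidiagonal.mp hkl, pow_add]
    ring
  rw [heq, Pi.mul_apply, ← hw.tsum_eq, ← hw'.tsum_eq, ht]
  exact hsum.hasSum

/-- a self-map of `ℍ` which is `w ↦ μ w` in the disc coordinate acts by `PowerSeries.rescale μ`. -/
theorem HasWExp.comp (h : HasWExp τ₀ f s) (σ : ℍ → ℍ) (μ : ℂ)
    (hσ : ∀ᶠ w in 𝓝 (0 : ℂ), σ (ofComplex (discInv τ₀ w)) = ofComplex (discInv τ₀ (μ * w))) :
    HasWExp τ₀ (fun τ => f (σ τ)) (PowerSeries.rescale μ s) := by
  have hcont : Tendsto (fun w : ℂ => μ * w) (𝓝 0) (𝓝 0) :=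
    (continuous_const.mul continuous_id).tendsto' _ _ (by simp)
  filter_upwards [hσ, hcont.eventually h] with w hw1 hw2
  rw [hw1]
  simpa [PowerSeries.coeff_rescale, mul_pow, mul_comm, mul_left_comm, mul_assoc] using hw2

end Fermat.Agent.S24.B
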