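/-
S24 block B (skeleton by helper216, proofs by helper103).  TASK S24-B15.
The elliptic elements `S` and `S * T` are rotations in the disc coordinates at `i` and `ρ`.
-/
import Fermat.Agent.S24.B.WExpBasic

set_option autoImplicit false

namespace Fermat.Agent.S24.B

open UpperHalfPlane Filter Topology
open scoped MatrixGroups Real Manifold

namespace Fixed

theorem discInv_zero (τ₀ : ℍ) : discInv τ₀ 0 = τ₀ := by simp [discInv]

theorem continuousAt_discInv (τ₀ : ℍ) : ContinuousAt (discInv τ₀) 0 := by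
  unfold discInv
  apply ContinuousAt.div
  · fun_prop
  · fun_prop
  · simp

theorem eventually_im_discInv_pos (τ₀ : ℍ) : ∀ᶠ w in 𝓝 (0 : ℂ), 0 < (discInv τ₀ w).im := by
  have h : ContinuousAt (fun w => (discInv τ₀ w).im) 0 :=
    Complex.continuous_im.continuousAt.comp (continuousAt_discInv τ₀)
  refine continuousAt_const.eventually_lt h ?_
  simpa [discInv_zero] using τ₀.im_pos

theorem eventually_im_discInv_mul_pos (τ₀ : ℍ) (μ : ℂ) :
    ∀ᶠ w in 𝓝 (0 : ℂ), 0 < (discInv τ₀ (μ * w)).im := by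
  have h : Tendsto (fun w : ℂ => μ * w) (𝓝 0) (𝓝 0) :=
    (continuous_const.mul continuous_id).tendsto' 0 0 (by simp)
  exact h.eventually (eventually_im_discInv_pos τ₀)

theorem eventually_one_sub_mul_ne_zero (μ : ℂ) : ∀ᶠ w in 𝓝 (0 : ℂ), 1 - μ * w ≠ 0 := by
  have h : ContinuousAt (fun w : ℂ => 1 - μ * w) 0 := by fun_prop
  exact h.eventually_ne (by simp)

end Fixed

open Fixed in
theorem S_inv_discInv : ∀ᶠ w in 𝓝 (0 : ℂ),
    ModularGroup.S⁻¹ • ofComplex (discInv UpperHalfPlane.I w)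
      = ofComplex (discInv UpperHalfPlane.I ((-1 : ℂ) * w)) := by
  filter_upwards [eventually_im_discInv_pos UpperHalfPlane.I,
    eventually_im_discInv_mul_pos UpperHalfPlane.I (-1),
    eventually_one_sub_mul_ne_zero 1, eventually_one_sub_mul_ne_zero (-1)] with w h1 h2 h3 h4
  rw [inv_smul_eq_iff, ofComplex_apply_of_im_pos h1, ofComplex_apply_of_im_pos h2,
    UpperHalfPlane.modular_S_smul]
  apply UpperHalfPlane.ext
  show discInv UpperHalfPlane.I w = (-(discInv UpperHalfPlane.I ((-1 : ℂ) * w)))⁻¹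
  have h3' : 1 - w ≠ 0 := by simpa using h3
  have h4' : 1 + w ≠ 0 := by simpa [sub_neg_eq_add] using h4
  have hI : Complex.I ≠ 0 := Complex.I_ne_zero
  simp only [discInv, UpperHalfPlane.coe_I, Complex.conj_I]
  have e1 : (1 : ℂ) - -1 * w = 1 + w := by ring
  have e2 : Complex.I - -Complex.I * (-1 * w) = Complex.I * (1 - w) := by ring
  rw [e1, e2, ← neg_div, inv_div]
  rw [div_eq_div_iff h3' (neg_ne_zero.mpr (mul_ne_zero hI h3'))]
  have hII : Complex.I * Complex.I = -1 := Complex.I_mul_I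
  linear_combination (-(1 + w) * (1 - w)) * hII

namespace Fixed

theorem rho_coe : (rho : ℂ) = -1 / 2 + (Real.sqrt 3 / 2 : ℝ) * Complex.I := rfl

theorem rho_sq_add : (rho : ℂ) ^ 2 + (rho : ℂ) + 1 = 0 := by
  have h3 : ((Real.sqrt 3 : ℝ) : ℂ) ^ 2 = 3 := by
    rw [← Complex.ofReal_pow, Real.sq_sqrt (by norm_num)]
    norm_num
  have hII : Complex.I ^ 2 = -1 := Complex.I_sq
  rw [rho_coe]
  push_cast
  linear_combination (1 / 4 : ℂ) * Complex.I ^ 2 * h3 + (3 / 4 : ℂ) * hII

theorem conj_rho : (starRingEnd ℂ) (rho : ℂ) = -1 - (rho : ℂ) := by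
  rw [rho_coe]
  simp only [map_add, map_mul, map_div₀, map_neg, map_one, Complex.conj_ofReal, Complex.conj_I,
    map_ofNat]
  ring

end Fixed

theorem rho_ne_zero : (rho : ℂ) ≠ 0 := UpperHalfPlane.ne_zero rho

namespace Fixed

theorem rho_cube : (rho : ℂ) ^ 3 = 1 := by
  linear_combination ((rho : ℂ) - 1) * rho_sq_add

theorem rho_ne_one : (rho : ℂ) ≠ 1 := by
  intro h
  have := rho_sq_add
  rw [h] at this
  norm_num at this

end Fixed

open Fixed in
theorem ST_inv_discInv : ∀ᶠ w in 𝓝 (0 : ℂ),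
    (ModularGroup.S * ModularGroup.T)⁻¹ • ofComplex (discInv rho w)
      = ofComplex (discInv rho ((rho : ℂ) * w)) := by
  filter_upwards [eventually_im_discInv_pos rho,
    eventually_im_discInv_mul_pos rho (rho : ℂ),
    eventually_one_sub_mul_ne_zero 1, eventually_one_sub_mul_ne_zero (rho : ℂ)] with w h1 h2 h3 h4
  rw [inv_smul_eq_iff, ofComplex_apply_of_im_pos h1, ofComplex_apply_of_im_pos h2,
    mul_smul, UpperHalfPlane.modular_T_smul, UpperHalfPlane.modular_S_smul]
  apply UpperHalfPlane.ext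
  show discInv rho w = (-(((1 : ℝ) : ℂ) + discInv rho ((rho : ℂ) * w)))⁻¹
  have h3' : 1 - w ≠ 0 := by simpa using h3
  have hr := rho_sq_add
  have hr0 := rho_ne_zero
  have hr1 : (1 : ℂ) + (rho : ℂ) ≠ 0 := by
    intro h
    apply hr0
    have : (rho : ℂ) ^ 2 = 0 := by linear_combination hr - h
    exact pow_eq_zero_iff (two_ne_zero) |>.mp this
  simp only [discInv, conj_rho, Complex.ofReal_one]
  have e : -((1 : ℂ) + ((rho : ℂ) - (-1 - (rho : ℂ)) * ((rho : ℂ) * w)) / (1 - (rho : ℂ) * w))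
      = (-(1 + (rho : ℂ)) * (1 - w)) / (1 - (rho : ℂ) * w) := by
    field_simp
    linear_combination (-w) * hr
  rw [e, inv_div, div_eq_div_iff h3' (mul_ne_zero (neg_ne_zero.mpr hr1) h3')]
  linear_combination (-(1 - w) * (1 + w)) * hr

theorem isPrimitiveRoot_neg_one : IsPrimitiveRoot (-1 : ℂˣ) 2 := by
  refine IsPrimitiveRoot.mk_of_lt _ (by norm_num) (by simp) ?_
  intro l hl0 hl2
  have : l = 1 := by omega
  subst this
  rw [pow_one]
  intro h
  have h' : ((-1 : ℂˣ) : ℂ) = 1 := by rw [h]; rfl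
  norm_num at h'

open Fixed in
theorem isPrimitiveRoot_rho : IsPrimitiveRoot (Units.mk0 (rho : ℂ) rho_ne_zero) 3 := by
  have h3 : (Units.mk0 (rho : ℂ) rho_ne_zero) ^ 3 = 1 := by
    apply Units.ext
    simpa using rho_cube
  have h1 : (Units.mk0 (rho : ℂ) rho_ne_zero) ≠ 1 := by
    intro h
    apply rho_ne_one
    have := congrArg Units.val h
    simpa using this
  have : Fact (Nat.Prime 3) := ⟨Nat.prime_three⟩
  rw [← orderOf_eq_prime h3 h1]
  exact IsPrimitiveRoot.orderOf _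

end Fermat.Agent.S24.B
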