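/-
S24 block B (OWNER helper216).
Level one facts on `jfun`, proved in `Analytic/J*.lean` (tasks 91-94); re-exported here under the
names used by the block B files.
-/
import Fermat.Agent.S24.Analytic.JBasic
import Fermat.Agent.S24.Analytic.JExp
import Fermat.Agent.S24.Analytic.JSurj
import Fermat.Agent.S24.Analytic.JOrd

set_option autoImplicit false

namespace Fermat.Agent.S24.B.Stubs

open UpperHalfPlane
open scoped MatrixGroups Real Manifold

theorem mdiff_jfun : MDiff jfun := Fermat.Agent.S24.mdiff_jfun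

theorem jfun_smul (γ : SL(2, ℤ)) (τ : ℍ) : jfun (γ • τ) = jfun τ := Fermat.Agent.S24.jfun_smul γ τ

theorem mdiff_of_mem_AL {N : ℕ} {f : ℍ → ℂ} (hf : f ∈ AL N) : MDiff f :=
  Fermat.Agent.S24.mdiff_of_mem_AL hf

theorem hasTExp_jfun : HasTExp 1 jfun (Jser 1) := Fermat.Agent.S24.hasTExp_jfun

theorem jfun_surjective : Function.Surjective jfun := Fermat.Agent.S24.jfun_surjective

theorem ordAt_jfun_generic (τ₀ : ℍ) (h0 : jfun τ₀ ≠ 0) (h1 : jfun τ₀ ≠ 1728) :
    ordAt τ₀ (fun τ => jfun τ - jfun τ₀) = 1 := Fermat.Agent.S24.ordAt_jfun_generic τ₀ h0 h1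

theorem jfun_I : jfun UpperHalfPlane.I = 1728 := Fermat.Agent.S24.jfun_I

theorem ordAt_jfun_I : ordAt UpperHalfPlane.I (fun τ => jfun τ - 1728) = 2 :=
  Fermat.Agent.S24.ordAt_jfun_I

theorem jfun_rho : jfun rho = 0 := Fermat.Agent.S24.jfun_rho

theorem ordAt_jfun_rho : ordAt rho jfun = 3 := Fermat.Agent.S24.ordAt_jfun_rho

end Fermat.Agent.S24.B.Stubs
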