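/-
S24 block B (skeleton by helper216).  TASK S24-B04.
Algebra of `t`-expansions (`t = exp (2 π i τ / N)`): uniqueness, sums, products, constants.
Proofs by helper281.
-/
import Fermat.Agent.S24.Analytic.Defs

set_option autoImplicit false

namespace Fermat.Agent.S24

open UpperHalfPlane
open scoped MatrixGroups Real Manifold

section Aux

open Complex Filter Topology Function

local notation "𝕢" => Function.Periodic.qParam

theorem hasSum_fiber_mul (s t : LaurentSeries Kbar) (q : ℂ) (hq0 : q ≠ 0) (n : ℤ) :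
    HasSum (fun a : ℤ => (iota (s.coeff a) * q ^ a) * (iota (t.coeff (n - a)) * q ^ (n - a)))
      (iota ((s * t).coeff n) * q ^ n) := by
  have key : ∀ a : ℤ, (iota (s.coeff a) * q ^ a) * (iota (t.coeff (n - a)) * q ^ (n - a))
      = iota (s.coeff a * t.coeff (n - a)) * q ^ n := by
    intro a
    rw [map_mul, show q ^ n = q ^ a * q ^ (n - a) by rw [← zpow_add₀ hq0]; congr 1; ring]
    ring
  simp_rw [key]
  rw [HahnSeries.coeff_mul, map_sum, Finset.sum_mul]
  have h : HasSum (fun a : ℤ => iota (s.coeff a * t.coeff (n - a)) * q ^ n)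
      (∑ a ∈ (Finset.antidiagonal s.isPWO_support t.isPWO_support n).image Prod.fst,
        iota (s.coeff a * t.coeff (n - a)) * q ^ n) := hasSum_sum_of_ne_finset_zero (by
      intro a ha
      by_contra hne
      apply ha
      have h1 : s.coeff a * t.coeff (n - a) ≠ 0 := by
        intro h0
        apply hne
        simp [h0]
      rw [Finset.mem_image]
      refine ⟨(a, n - a), ?_, rfl⟩
      rw [Finset.mem_antidiagonal]
      exact ⟨left_ne_zero_of_mul h1, right_ne_zero_of_mul h1, by simp⟩)
  rw [Finset.sum_image] at h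
  · convert h using 1
    refine Finset.sum_congr rfl fun ij hij => ?_
    rw [Finset.mem_antidiagonal] at hij
    rw [show n - ij.1 = ij.2 by rw [← hij.2.2]; ring]
  · intro x hx y hy hxy
    rw [Finset.mem_coe, Finset.mem_antidiagonal] at hx hy
    have : x.2 = y.2 := by
      have h1 := hx.2.2
      have h2 := hy.2.2
      have h3 : x.1 = y.1 := hxy
      omega
    exact Prod.ext hxy this

theorem hasSum_mul_aux0 (u v : ℤ → ℂ) (a b : ℂ) (h1 : HasSum u a) (h2 : HasSum v b) :
    HasSum (fun x : ℤ × ℤ => u x.2 * v (x.1 - x.2)) (a * b) := by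
  have hsum : Summable (fun x : ℤ × ℤ => u x.1 * v x.2) :=
    summable_mul_of_summable_norm h1.summable.norm h2.summable.norm
  have h3 : HasSum (fun x : ℤ × ℤ => u x.1 * v x.2) (a * b) :=
    h1.mul h2 hsum
  let e : ℤ × ℤ ≃ ℤ × ℤ :=
    ⟨fun x => (x.2, x.1 - x.2), fun x => (x.1 + x.2, x.1), fun x => by simp, fun x => by simp⟩
  exact (e.hasSum_iff).mpr h3

theorem hasSum_mul_aux (s t : LaurentSeries Kbar) (q : ℂ) (hq0 : q ≠ 0) (a b : ℂ)
    (h1 : HasSum (fun n : ℤ => iota (s.coeff n) * q ^ n) a)
    (h2 : HasSum (fun n : ℤ => iota (t.coeff n) * q ^ n) b) :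
    HasSum (fun n : ℤ => iota ((s * t).coeff n) * q ^ n) (a * b) :=
  HasSum.prod_fiberwise (hasSum_mul_aux0 _ _ a b h1 h2) (fun n => hasSum_fiber_mul s t q hq0 n)

/-- every point of the punctured unit disc is a value of `qParam`. -/
theorem exists_qParam_eq {h : ℝ} (hh : 0 < h) {q : ℂ} (hq : ‖q‖ < 1) (hq0 : q ≠ 0) :
    ∃ τ : ℍ, 𝕢 h τ = q :=
  ⟨⟨Periodic.invQParam h q, Periodic.im_invQParam_pos_of_norm_lt_one hh hq hq0⟩,
    Periodic.qParam_right_inv hh.ne' hq0⟩

theorem tendsto_of_hasSum_nat {h : ℝ} (hh : 0 < h) {f : ℍ → ℂ} {c : ℕ → ℂ}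
    (hf : ∀ τ : ℍ, HasSum (fun m : ℕ => c m * 𝕢 h τ ^ m) (f τ)) :
    Tendsto f atImInfty (𝓝 (c 0)) := by
  set p : FormalMultilinearSeries ℂ ℂ ℂ := .ofScalars ℂ c with hp
  have hrad : 1 ≤ p.radius := by
    refine le_of_forall_lt_imp_le_of_dense fun r hr ↦ ?_
    rcases eq_or_ne r 0 with rfl | hr'
    · simp
    · lift r to NNReal using hr.ne_top
      apply FormalMultilinearSeries.le_radius_of_summable
      obtain ⟨τ, hτ⟩ := exists_qParam_eq hh (q := (r : ℂ)) (by simpa using hr) (mod_cast hr')
      have := (hf τ).summable.norm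
      rw [hτ] at this
      simpa [hp, norm_mul, mul_comm] using this
  have hball := p.hasFPowerSeriesOnBall (lt_of_lt_of_le one_pos hrad)
  have hcont : ContinuousAt p.sum 0 := hball.hasFPowerSeriesAt.continuousAt
  have hsum : ∀ q : ℂ, p.sum q = ∑' n, c n * q ^ n := by
    intro q
    simp [FormalMultilinearSeries.sum, hp, mul_comm]
  have h0 : p.sum 0 = c 0 := by
    rw [hsum, tsum_eq_single 0]
    · simp
    · intro n hn
      simp [hn]
  have hfeq : f = fun τ : ℍ => p.sum (𝕢 h τ) := by
    funext τ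
    rw [hsum, (hf τ).tsum_eq]
  rw [hfeq, ← h0]
  exact hcont.tendsto.comp (qParam_tendsto_atImInfty hh)

end Aux

variable {N : ℕ} [NeZero N] {f g : ℍ → ℂ} {s s' : LaurentSeries Kbar}

omit [NeZero N] in
theorem HasTExp.single (n : ℤ) (c : Kbar) :
    HasTExp N (fun τ => iota c * Function.Periodic.qParam N τ ^ n) (HahnSeries.single n c) :=
  fun τ => by
    have := hasSum_single (f := fun m : ℤ =>
      iota ((HahnSeries.single n c : LaurentSeries Kbar).coeff m)
        * Function.Periodic.qParam N τ ^ m) n (by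
        intro m hm
        simp [HahnSeries.coeff_single_of_ne hm])
    simpa using this

omit [NeZero N] in
theorem HasTExp.const (c : Kbar) : HasTExp N (fun _ => iota c) (HahnSeries.C c) := by
  simpa using HasTExp.single (N := N) 0 c

omit [NeZero N] in
theorem HasTExp.add (h : HasTExp N f s) (h' : HasTExp N g s') :
    HasTExp N (f + g) (s + s') := fun τ => by
  simpa [add_mul] using (h τ).add (h' τ)

omit [NeZero N] in
theorem HasTExp.neg (h : HasTExp N f s) : HasTExp N (-f) (-s) := fun τ => by
  simpa using (h τ).neg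

omit [NeZero N] in
theorem HasTExp.sub (h : HasTExp N f s) (h' : HasTExp N g s') :
    HasTExp N (f - g) (s - s') := fun τ => by
  simpa [sub_mul] using (h τ).sub (h' τ)

omit [NeZero N] in
theorem HasTExp.mul (h : HasTExp N f s) (h' : HasTExp N g s') :
    HasTExp N (f * g) (s * s') := by
  intro τ
  exact hasSum_mul_aux s s' _ (Function.Periodic.qParam_ne_zero _) _ _ (h τ) (h' τ)

omit [NeZero N] in
theorem HasTExp.one : HasTExp N 1 1 := by
  have := HasTExp.const (N := N) 1
  rw [map_one, map_one] at this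
  exact this

omit [NeZero N] in
theorem HasTExp.pow (h : HasTExp N f s) (n : ℕ) : HasTExp N (f ^ n) (s ^ n) := by
  induction n with
  | zero => simpa using HasTExp.one
  | succ n ih => simpa [pow_succ] using ih.mul h

omit [NeZero N] in
theorem HasTExp.eq_zero (h : HasTExp N f 0) : f = 0 := by
  funext τ
  have h0 : HasSum (fun _ : ℤ => (0 : ℂ)) 0 := hasSum_zero
  have h1 := h τ
  simp only [HahnSeries.coeff_zero, map_zero, zero_mul] at h1
  exact h1.unique h0

omit [NeZero N] in
theorem HasTExp.hasSum_nat (h : HasTExp N f s) (hs : ∀ n : ℤ, n < 0 → s.coeff n = 0) (τ : ℍ) :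
    HasSum (fun m : ℕ => iota (s.coeff (m : ℤ)) * Function.Periodic.qParam N τ ^ m) (f τ) := by
  have := (Function.Injective.hasSum_iff
    (f := fun n : ℤ => iota (s.coeff n) * Function.Periodic.qParam N τ ^ n)
    (g := (Nat.cast : ℕ → ℤ)) Nat.cast_injective (by
      intro x hx
      have hx0 : x < 0 := by
        by_contra hx0
        exact hx ⟨x.toNat, by simp [Int.toNat_of_nonneg (not_lt.mp hx0)]⟩
      simp [hs x hx0])).mpr (h τ)
  simpa [Function.comp_def] using this

/-- a function with an expansion without polar part tends to the constant coefficient. -/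
theorem HasTExp.tendsto (h : HasTExp N f s) (hs : ∀ n : ℤ, n < 0 → s.coeff n = 0) :
    Filter.Tendsto f atImInfty (nhds (iota (s.coeff 0))) := by
  have hN : (0 : ℝ) < (N : ℝ) := by exact_mod_cast Nat.pos_of_ne_zero (NeZero.ne N)
  exact tendsto_of_hasSum_nat hN (c := fun m : ℕ => iota (s.coeff (m : ℤ))) (h.hasSum_nat hs)

/-- a function with an expansion without polar part is bounded at `i∞`. -/
theorem HasTExp.isBoundedAtImInfty (h : HasTExp N f s) (hs : ∀ n : ℤ, n < 0 → s.coeff n = 0) :
    IsBoundedAtImInfty f :=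
  (h.tendsto hs).isBigO_one ℝ

theorem HasTExp.series_eq_zero (h : HasTExp N 0 s) : s = 0 := by
  by_contra hs
  have h1 := (HasTExp.single (N := N) (-s.order) 1).mul h
  rw [mul_zero] at h1
  have hc : ∀ n : ℤ, ((HahnSeries.single (-s.order) (1 : Kbar) : LaurentSeries Kbar) * s).coeff n
      = s.coeff (n + s.order) := by
    intro n
    rw [HahnSeries.coeff_single_mul, one_mul, sub_neg_eq_add]
  have h2 := h1.tendsto (by
    intro n hn
    rw [hc]
    exact HahnSeries.coeff_eq_zero_of_lt_order (by omega))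
  rw [hc, zero_add] at h2
  have h3 : iota (s.coeff s.order) = 0 :=
    tendsto_nhds_unique h2 (tendsto_const_nhds (x := (0 : ℂ)))
  exact hs (HahnSeries.coeff_order_eq_zero.mp (iota_injective (by rw [h3, map_zero])))

theorem HasTExp.unique (h : HasTExp N f s) (h' : HasTExp N f s') : s = s' := by
  have h0 := h.sub h'
  rw [sub_self] at h0
  exact sub_eq_zero.mp h0.series_eq_zero

end Fermat.Agent.S24
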