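/-
S24 block B (skeleton by helper216, proofs by helper214).  TASK S24-B01.
* `lval`  : the `X`-adic valuation of `LaurentSeries C`, with the formula `exp (- order)`
* `twist` : the ring endomorphism `∑ aₙ Xⁿ ↦ ∑ aₙ ζⁿ Xⁿ`
-/
import Fermat.Agent.S24.Defs

set_option autoImplicit false

namespace Fermat.Agent.S24.B

open scoped WithZero

variable (C : Type*) [Field C]

/-- The `X`-adic valuation on Laurent series. -/
noncomputable def lval : Valuation (LaurentSeries C) ℤᵐ⁰ := Valued.v

variable {C}

/-- characterisation of the order of a nonzero Hahn series over `ℤ`. -/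
theorem order_eq_of_coeff {f : LaurentSeries C} {m : ℤ} (h1 : f.coeff m ≠ 0)
    (h2 : ∀ k < m, f.coeff k = 0) : f.order = m := by
  have hne : f ≠ 0 := HahnSeries.ne_zero_of_coeff_ne_zero h1
  refine le_antisymm (HahnSeries.order_le_of_coeff_ne_zero h1) ?_
  by_contra hlt
  rw [not_le] at hlt
  exact hne (HahnSeries.coeff_order_eq_zero.mp (h2 _ hlt))

theorem lval_of_ne_zero {f : LaurentSeries C} (hf : f ≠ 0) :
    lval C f = WithZero.exp (-f.order) := by
  unfold lval
  refine le_antisymm ?_ ?_
  · rw [LaurentSeries.valuation_le_iff_coeff_lt_eq_zero]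
    intro n hn
    exact HahnSeries.coeff_eq_zero_of_lt_order hn
  · by_contra hlt
    rw [not_le] at hlt
    have h1 : Valued.v f ≤ WithZero.exp (-(f.order + 1)) := by
      have hne : Valued.v f ≠ 0 := (Valuation.ne_zero_iff _).2 hf
      obtain ⟨d, hd⟩ : ∃ d : ℤ, Valued.v f = WithZero.exp d := by
        refine ⟨WithZero.log (Valued.v f), ?_⟩
        rw [WithZero.exp_log hne]
      rw [hd] at hlt ⊢
      rw [WithZero.exp_lt_exp] at hlt
      rw [WithZero.exp_le_exp]
      omega
    rw [LaurentSeries.valuation_le_iff_coeff_lt_eq_zero] at h1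
    exact hf (HahnSeries.coeff_order_eq_zero.mp (h1 _ (by omega)))

/-- The series `∑ aₙ ζⁿ Xⁿ`. -/
noncomputable def twistFun (ζ : Cˣ) (f : LaurentSeries C) : LaurentSeries C where
  coeff n := ((ζ ^ n : Cˣ) : C) * f.coeff n
  isPWO_support' := f.isPWO_support.mono (by
    intro n hn
    simp only [Function.mem_support, ne_eq, mul_eq_zero, not_or] at hn
    exact hn.2)

@[simp] theorem twistFun_coeff (ζ : Cˣ) (f : LaurentSeries C) (n : ℤ) :
    (twistFun ζ f).coeff n = ((ζ ^ n : Cˣ) : C) * f.coeff n := rfl

theorem support_twistFun (ζ : Cˣ) (f : LaurentSeries C) :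
    (twistFun ζ f).support = f.support := by
  ext n
  rw [HahnSeries.mem_support, HahnSeries.mem_support, twistFun_coeff]
  exact ⟨fun h h0 => h (by rw [h0, mul_zero]), fun h => mul_ne_zero (Units.ne_zero _) h⟩

/-- `twistFun` as a ring homomorphism. -/
noncomputable def twist (ζ : Cˣ) : LaurentSeries C →+* LaurentSeries C where
  toFun := twistFun ζ
  map_one' := by
    ext n
    rw [twistFun_coeff, HahnSeries.coeff_one]
    split_ifs with h
    · subst h; simp
    · simp
  map_mul' := by
    intro f g
    ext n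
    rw [twistFun_coeff, HahnSeries.coeff_mul, HahnSeries.coeff_mul, Finset.mul_sum]
    have hs : Finset.antidiagonal (twistFun ζ f).isPWO_support (twistFun ζ g).isPWO_support n
        = Finset.antidiagonal f.isPWO_support g.isPWO_support n := by
      ext ij
      simp only [Finset.mem_antidiagonal, support_twistFun]
    rw [hs]
    refine Finset.sum_congr rfl ?_
    intro ij hij
    rw [Finset.mem_antidiagonal] at hij
    rw [twistFun_coeff, twistFun_coeff, ← hij.2.2, zpow_add, Units.val_mul]
    ring
  map_zero' := by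
    ext n
    simp
  map_add' := by
    intro f g
    ext n
    simp [mul_add]

@[simp] theorem twist_coeff (ζ : Cˣ) (f : LaurentSeries C) (n : ℤ) :
    (twist ζ f).coeff n = ((ζ ^ n : Cˣ) : C) * f.coeff n := rfl

theorem twist_one (f : LaurentSeries C) : twist (1 : Cˣ) f = f := by
  ext n
  simp

theorem twist_twist (ζ ξ : Cˣ) (f : LaurentSeries C) :
    twist ζ (twist ξ f) = twist (ζ * ξ) f := by
  ext n
  rw [twist_coeff, twist_coeff, twist_coeff, mul_zpow, Units.val_mul, mul_assoc]

theorem twist_C (ζ : Cˣ) (c : C) : twist ζ (HahnSeries.C c) = HahnSeries.C c := by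
  ext n
  rw [twist_coeff, HahnSeries.C_apply, HahnSeries.coeff_single]
  split_ifs with h
  · subst h; simp
  · simp

theorem twist_eq_zero_iff (ζ : Cˣ) (f : LaurentSeries C) : twist ζ f = 0 ↔ f = 0 := by
  constructor
  · intro h
    ext n
    have h1 := congrArg (fun g : LaurentSeries C => g.coeff n) h
    simp only [twist_coeff, HahnSeries.coeff_zero, mul_eq_zero, Units.ne_zero, false_or] at h1
    simpa using h1
  · rintro rfl
    exact map_zero _

theorem order_twist (ζ : Cˣ) (f : LaurentSeries C) : (twist ζ f).order = f.order := by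
  by_cases hf : f = 0
  · subst hf; rw [map_zero]
  · refine order_eq_of_coeff ?_ ?_
    · rw [twist_coeff]
      exact mul_ne_zero (Units.ne_zero _) (HahnSeries.coeff_order_eq_zero.not.2 hf)
    · intro k hk
      rw [twist_coeff, HahnSeries.coeff_eq_zero_of_lt_order hk, mul_zero]

/-- compatibility with `PowerSeries.rescale`. -/
theorem twist_ofPowerSeries (ζ : Cˣ) (f : PowerSeries C) :
    twist ζ (HahnSeries.ofPowerSeries ℤ C f) =
      HahnSeries.ofPowerSeries ℤ C (PowerSeries.rescale (ζ : C) f) := by
  ext n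
  rw [twist_coeff]
  by_cases hn : 0 ≤ n
  · obtain ⟨m, rfl⟩ := Int.eq_ofNat_of_zero_le hn
    have h1 : ∀ g : PowerSeries C, (HahnSeries.ofPowerSeries ℤ C g).coeff (m : ℤ)
        = PowerSeries.coeff m g := fun g => PowerSeries.coeff_coe g m |>.trans (by simp)
    rw [h1, h1, PowerSeries.coeff_rescale]
    simp
  · have h1 : ∀ g : PowerSeries C, (HahnSeries.ofPowerSeries ℤ C g).coeff n = 0 := by
      intro g
      refine (PowerSeries.coeff_coe g n).trans ?_
      rw [if_pos (by omega)]
    rw [h1, h1, mul_zero]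

theorem order_qExpand (e : ℕ) [NeZero e] (f : LaurentSeries C) :
    (ModularCurve.qExpand C e f).order = (e : ℤ) * f.order := by
  by_cases hf : f = 0
  · subst hf; rw [map_zero]; simp
  · refine order_eq_of_coeff ?_ ?_
    · rw [ModularCurve.qExpand_coeff_mul]
      exact HahnSeries.coeff_order_eq_zero.not.2 hf
    · intro k hk
      by_cases hdvd : (e : ℤ) ∣ k
      · obtain ⟨j, rfl⟩ := hdvd
        rw [ModularCurve.qExpand_coeff_mul]
        refine HahnSeries.coeff_eq_zero_of_lt_order ?_
        have hp : (0 : ℤ) < (e : ℤ) := by exact_mod_cast Nat.pos_of_ne_zero (NeZero.ne e)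
        exact lt_of_mul_lt_mul_left hk hp.le
      · exact ModularCurve.qExpand_coeff_of_not_dvd e f hdvd

theorem order_ofPowerSeries (f : PowerSeries C) (n : ℕ) (hf : f.order = (n : ℕ∞)) :
    (HahnSeries.ofPowerSeries ℤ C f).order = (n : ℤ) := by
  refine order_eq_of_coeff ?_ ?_
  · have h1 : (HahnSeries.ofPowerSeries ℤ C f).coeff (n : ℤ) = PowerSeries.coeff n f :=
      (PowerSeries.coeff_coe f n).trans (by simp)
    rw [h1]
    have hne : f ≠ 0 := by
      intro h0
      rw [h0, PowerSeries.order_zero] at hf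
      exact ENat.top_ne_natCast n hf
    have h2 := PowerSeries.coeff_order hne
    rwa [hf, ENat.toNat_natCast] at h2
  · intro k hk
    refine (PowerSeries.coeff_coe f k).trans ?_
    split_ifs with h
    · rfl
    · refine PowerSeries.coeff_of_lt_order _ ?_
      rw [hf]
      have : k.natAbs < n := by omega
      exact_mod_cast this

end Fermat.Agent.S24.B
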