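/-
S24 block B (skeleton by helper216, proofs by helper183).  TASK S24-B06.
Hermite normal form: every generator `j ∘ α` of `AL N` is `τ ↦ j ((a τ + b) / d)`.
-/
import Fermat.Agent.S24.Analytic.Defs

set_option autoImplicit false

namespace Fermat.Agent.S24.B

open UpperHalfPlane
open scoped MatrixGroups Real

/-- The matrix `[[a, b], [0, d]]` in `GL₂(ℝ)`. -/
noncomputable def triMat (a b d : ℤ) (ha : 0 < a) (hd : 0 < d) : GL (Fin 2) ℝ :=
  Matrix.GeneralLinearGroup.mkOfDetNeZero !![(a : ℝ), (b : ℝ); 0, (d : ℝ)]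
    (by
      have h1 : (a : ℝ) ≠ 0 := by exact_mod_cast ha.ne'
      have h2 : (d : ℝ) ≠ 0 := by exact_mod_cast hd.ne'
      simp [Matrix.det_fin_two, h1, h2])

theorem coe_triMat (a b d : ℤ) (ha : 0 < a) (hd : 0 < d) :
    (triMat a b d ha hd : Matrix (Fin 2) (Fin 2) ℝ) = !![(a : ℝ), (b : ℝ); 0, (d : ℝ)] := rfl

theorem coe_triMat_smul (a b d : ℤ) (ha : 0 < a) (hd : 0 < d) (τ : ℍ) :
    ((triMat a b d ha hd • τ : ℍ) : ℂ) = ((a : ℂ) * τ + b) / d := by
  have hdet : 0 < (triMat a b d ha hd).det.val := by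
    rw [Matrix.GeneralLinearGroup.val_det_apply, coe_triMat, Matrix.det_fin_two_of]
    have h1 : (0 : ℝ) < a := by exact_mod_cast ha
    have h2 : (0 : ℝ) < d := by exact_mod_cast hd
    simp only [mul_zero, sub_zero]
    positivity
  rw [coe_smul_of_det_pos hdet, num, denom, coe_triMat]
  simp

theorem exists_hermite (α : Matrix (Fin 2) (Fin 2) ℤ) (hα : 0 < α.det) :
    ∃ (γ : SL(2, ℤ)) (a b d : ℤ), 0 < a ∧ 0 < d ∧ a * d = α.det ∧
      a = (Int.gcd (α 0 0) (α 1 0) : ℤ) ∧ α = γ.1 * !![a, b; 0, d] := by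
  set p := α 0 0 with hp
  set r := α 1 0 with hr
  set q := α 0 1 with hq
  set s := α 1 1 with hs
  have hdet : α.det = p * s - q * r := Matrix.det_fin_two α
  set a : ℤ := (Int.gcd p r : ℤ) with ha
  have ha0 : a ≠ 0 := by
    intro h0
    have h0' : Int.gcd p r = 0 := by rw [ha] at h0; exact_mod_cast h0
    rw [Int.gcd_eq_zero_iff] at h0'
    rw [hdet, h0'.1, h0'.2] at hα
    simp at hα
  have hapos : 0 < a := lt_of_le_of_ne (by positivity) (Ne.symm ha0)
  obtain ⟨p', hp'⟩ : a ∣ p := Int.gcd_dvd_left p r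
  obtain ⟨r', hr'⟩ : a ∣ r := Int.gcd_dvd_right p r
  set x := Int.gcdA p r with hx
  set y := Int.gcdB p r with hy
  have hbez : a = p * x + r * y := Int.gcd_eq_gcd_ab p r
  have hbez' : p' * x + r' * y = 1 := by
    have : a * (p' * x + r' * y) = a * 1 := by
      rw [mul_one]
      conv_rhs => rw [hbez, hp', hr']
      ring
    exact mul_left_cancel₀ ha0 this
  have hdd : α.det = a * (p' * s - q * r') := by
    rw [hdet, hp', hr']; ring
  have hdpos : 0 < p' * s - q * r' := by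
    rw [hdd] at hα
    exact (mul_pos_iff_of_pos_left hapos).mp hα
  refine ⟨⟨!![p', -y; r', x], ?_⟩, a, x * q + y * s, p' * s - q * r', hapos, hdpos, hdd.symm, rfl, ?_⟩
  · rw [Matrix.det_fin_two_of]; linarith
  · ext i j
    fin_cases i <;> fin_cases j
    · simp [Matrix.mul_apply, Fin.sum_univ_two]
      rw [← hp, hp']; ring
    · simp [Matrix.mul_apply, Fin.sum_univ_two]
      rw [← hq]
      linear_combination (-q) * hbez'
    · simp [Matrix.mul_apply, Fin.sum_univ_two]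
      rw [← hr, hr']; ring
    · simp [Matrix.mul_apply, Fin.sum_univ_two]
      rw [← hs]
      linear_combination (-s) * hbez'

/-- needs `jfun_smul` (invariance of `jfun` under `SL(2,ℤ)`), given here as a hypothesis so that this
file is independent of the level one files. -/
theorem jfun_levelMat (hj : ∀ (γ : SL(2, ℤ)) (τ : ℍ), jfun (γ • τ) = jfun τ)
    (g : GL (Fin 2) ℝ) (α : Matrix (Fin 2) (Fin 2) ℤ) (hα : 0 < α.det)
    (hg : (g : Matrix (Fin 2) (Fin 2) ℝ) = α.map (Int.cast : ℤ → ℝ)) :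
    ∃ (a b d : ℤ) (ha : 0 < a) (hd : 0 < d), a * d = α.det ∧
      a = (Int.gcd (α 0 0) (α 1 0) : ℤ) ∧
      ∀ τ : ℍ, jfun (g • τ) = jfun (triMat a b d ha hd • τ) := by
  obtain ⟨γ, a, b, d, ha, hd, had, hgcd, hmul⟩ := exists_hermite α hα
  refine ⟨a, b, d, ha, hd, had, hgcd, fun τ => ?_⟩
  have hgg : g = (γ : GL (Fin 2) ℝ) * triMat a b d ha hd := by
    apply Units.ext
    rw [hg, Units.val_mul, coe_triMat]
    conv_lhs => rw [hmul]
    ext i j
    fin_cases i <;> fin_cases j <;>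
      simp [Matrix.mul_apply, Fin.sum_univ_two]
  rw [hgg, mul_smul]
  exact hj γ _

end Fermat.Agent.S24.B
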