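/-
S24 block B (skeleton by helper216).  TASK S24-B05 (owner helper175).
Roots of unity in `ℚ̄` compatible with `iota : ℚ̄ → ℂ`.
-/
import Fermat.Agent.S24.Analytic.Defs

set_option autoImplicit false

namespace Fermat.Agent.S24.B

open scoped Real

theorem exists_zetaK (N : ℕ) [NeZero N] :
    ∃ ζ : Kbarˣ, iota (ζ : Kbar) = Complex.exp (2 * π * Complex.I / N) := by
  obtain ⟨ζ0, hζ0⟩ := HasEnoughRootsOfUnity.exists_primitiveRoot Kbar N
  have h1 : IsPrimitiveRoot (iota ζ0) N := hζ0.map_of_injective iota_injective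
  have h2 : IsPrimitiveRoot (Complex.exp (2 * π * Complex.I / N)) N :=
    Complex.isPrimitiveRoot_exp N (NeZero.ne N)
  obtain ⟨k, -, hk⟩ := h1.eq_pow_of_pow_eq_one h2.pow_eq_one
  have hne : ζ0 ≠ 0 := hζ0.ne_zero (NeZero.ne N)
  refine ⟨Units.mk0 (ζ0 ^ k) (pow_ne_zero _ hne), ?_⟩
  rw [Units.val_mk0, map_pow, hk]

/-- The element of `ℚ̄` mapping to `exp (2 π i / N)`. -/
noncomputable def zetaK (N : ℕ) [NeZero N] : Kbarˣ := (exists_zetaK N).choose

theorem iota_zetaK (N : ℕ) [NeZero N] :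
    iota (zetaK N : Kbar) = Complex.exp (2 * π * Complex.I / N) := (exists_zetaK N).choose_spec

theorem isPrimitiveRoot_zetaK (N : ℕ) [NeZero N] : IsPrimitiveRoot (zetaK N) N := by
  rw [← IsPrimitiveRoot.coe_units_iff]
  refine IsPrimitiveRoot.of_map_of_injective (f := iota) (hf := iota_injective) ?_
  rw [iota_zetaK]
  exact Complex.isPrimitiveRoot_exp N (NeZero.ne N)

theorem iota_zetaK_zpow (N : ℕ) [NeZero N] (k : ℤ) :
    iota ((zetaK N ^ k : Kbarˣ) : Kbar) = Complex.exp (2 * π * Complex.I * k / N) := by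
  rw [Units.val_zpow_eq_zpow_val, map_zpow₀, iota_zetaK, ← Complex.exp_int_mul]
  congr 1
  ring

end Fermat.Agent.S24.B
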