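/-
S24 block B (skeleton by helper216).  TASK S24-B07 (owner helper202).
Behaviour of `t`-expansions under `τ ↦ (a τ + b) / d` and under `T`.
-/
import Fermat.Agent.S24.B.Laurent
import Fermat.Agent.S24.B.Zeta
import Fermat.Agent.S24.B.Tri

set_option autoImplicit false

namespace Fermat.Agent.S24.B

open UpperHalfPlane ModularCurve
open scoped MatrixGroups Real

theorem iota_units_zpow (ξ : Kbarˣ) (n : ℤ) :
    iota ((ξ ^ n : Kbarˣ) : Kbar) = iota (ξ : Kbar) ^ n := by
  rw [Units.val_zpow_eq_zpow_val, map_zpow₀]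

/-- If `f = ∑ sₙ qⁿ` then `f ((a τ + b) / d) = ∑ sₙ ξⁿ t^(e n)` where `t = exp (2 π i τ / N)`,
`e / N = a / d`, `ξ = exp (2 π i b / d)`. -/
theorem hasTExp_tri {N : ℕ} [NeZero N] {f : ℍ → ℂ} {s : LaurentSeries Kbar} (h : HasTExp 1 f s)
    (a b d : ℤ) (ha : 0 < a) (hd : 0 < d) (e : ℕ) [NeZero e] (he : (e : ℤ) * d = N * a)
    (ξ : Kbarˣ) (hξ : iota (ξ : Kbar) = Complex.exp (2 * π * Complex.I * b / d)) :
    HasTExp N (fun τ => f (triMat a b d ha hd • τ)) (qExpand Kbar e (twist ξ s)) := by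
  intro τ
  have h1 := h (triMat a b d ha hd • τ)
  have hN : (N : ℂ) ≠ 0 := by exact_mod_cast NeZero.ne N
  have hdC : (d : ℂ) ≠ 0 := by exact_mod_cast hd.ne'
  have heC : (e : ℂ) * d = N * a := by exact_mod_cast he
  have hq : Function.Periodic.qParam ((1 : ℕ) : ℝ) ((triMat a b d ha hd • τ : ℍ) : ℂ)
      = iota (ξ : Kbar) * Function.Periodic.qParam (N : ℝ) (τ : ℂ) ^ e := by
    rw [hξ, coe_triMat_smul, Function.Periodic.qParam, Function.Periodic.qParam,
      ← Complex.exp_nat_mul, ← Complex.exp_add]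
    congr 1
    push_cast
    field_simp
    linear_combination (τ : ℂ) * (-heC)
  have hinj : Function.Injective (fun n : ℤ => (e : ℤ) * n) :=
    mul_right_injective₀ (by exact_mod_cast NeZero.ne e)
  rw [← hinj.hasSum_iff]
  · convert h1 using 2 with n
    simp only [Function.comp_apply]
    rw [qExpand_coeff_mul, twist_coeff, map_mul, iota_units_zpow, hq, mul_zpow, zpow_mul,
      zpow_natCast]
    ring
  · intro n hn
    rw [qExpand_coeff_of_not_dvd, map_zero, zero_mul]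
    rintro ⟨m, rfl⟩
    exact hn ⟨m, rfl⟩

/-- `(T • f) τ = f (T⁻¹ τ) = f (τ - 1)` has the expansion twisted by `ζ_N⁻¹`. -/
theorem hasTExp_T_inv {N : ℕ} [NeZero N] {f : ℍ → ℂ} {s : LaurentSeries Kbar} (h : HasTExp N f s) :
    HasTExp N (fun τ => f (ModularGroup.T⁻¹ • τ)) (twist (zetaK N)⁻¹ s) := by
  intro τ
  have h1 := h (ModularGroup.T⁻¹ • τ)
  have hN : (N : ℂ) ≠ 0 := by exact_mod_cast NeZero.ne N
  have hcoe : ((ModularGroup.T⁻¹ • τ : ℍ) : ℂ) = (τ : ℂ) - 1 := by
    have := UpperHalfPlane.modular_T_zpow_smul τ (-1)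
    rw [zpow_neg_one] at this
    rw [this, UpperHalfPlane.coe_vadd]
    push_cast
    ring
  have hq : Function.Periodic.qParam (N : ℝ) ((ModularGroup.T⁻¹ • τ : ℍ) : ℂ)
      = iota (((zetaK N)⁻¹ : Kbarˣ) : Kbar) * Function.Periodic.qParam (N : ℝ) (τ : ℂ) := by
    rw [Units.val_inv_eq_inv_val, map_inv₀, iota_zetaK, hcoe, Function.Periodic.qParam,
      Function.Periodic.qParam, ← Complex.exp_neg, ← Complex.exp_add]
    congr 1
    push_cast
    field_simp
    ring
  convert h1 using 2 with n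
  rw [twist_coeff, map_mul, iota_units_zpow, hq, mul_zpow]
  ring

end Fermat.Agent.S24.B
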