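/-
S24 block B (skeleton by helper216, proofs by helper287).  TASK S24-B08.
The `t`-expansion homomorphism `texp N : AL N →ₐ[ℚ̄] ℚ̄((t))`; `AL N` is a domain.
-/
import Fermat.Agent.S24.B.Stubs
import Fermat.Agent.S24.B.TExpBasic
import Fermat.Agent.S24.B.TExpTri
import Fermat.Agent.S24.Formal

set_option autoImplicit false

namespace Fermat.Agent.S24.B

open UpperHalfPlane ModularCurve
open scoped MatrixGroups Real

variable {N : ℕ} [NeZero N]

theorem order_Jser_one : (Jser 1).order = -1 := by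
  have hc : (Jser 1).coeff (-1 : ℤ) = 1 := by
    rw [Formal.Jser_one, coeffEmb_coeff, coeff_jq_neg_one, map_one]
  have hc' : (Jser 1).coeff (-1 : ℤ) ≠ 0 := by rw [hc]; exact one_ne_zero
  have hne : Jser 1 ≠ 0 := HahnSeries.ne_zero_of_coeff_ne_zero hc'
  refine le_antisymm (HahnSeries.order_le_of_coeff_ne_zero hc') ?_
  by_contra hlt
  rw [not_le] at hlt
  refine hne (HahnSeries.coeff_order_eq_zero.mp ?_)
  rw [Formal.Jser_one, coeffEmb_coeff, ← Formal.Jser_one, coeff_jq_of_lt hlt, map_zero]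

theorem Jser_eq_qExpand (d : ℕ) [NeZero d] : Jser d = qExpand Kbar d (Jser 1) := by
  rw [Formal.Jser_one, Jser]
  ext k
  by_cases hk : (d : ℤ) ∣ k
  · obtain ⟨m, rfl⟩ := hk
    rw [coeffEmb_coeff, qExpand_coeff_mul, qExpand_coeff_mul, coeffEmb_coeff]
  · rw [coeffEmb_coeff, qExpand_coeff_of_not_dvd d _ hk, qExpand_coeff_of_not_dvd d _ hk,
      map_zero]

/-- expansion of a generator, with its order: `-(N / D) a²` with `D = det α`,
`a = gcd (α 0 0, α 1 0)`. -/
theorem exists_hasTExp_gen (g : GL (Fin 2) ℝ) (α : Matrix (Fin 2) (Fin 2) ℤ) (hα : 0 < α.det)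
    (hN : α.det ∣ (N : ℤ)) (hg : (g : Matrix (Fin 2) (Fin 2) ℝ) = α.map (Int.cast : ℤ → ℝ)) :
    ∃ s : LaurentSeries Kbar, HasTExp N (fun τ => jfun (g • τ)) s ∧
      s.order * α.det = -((N : ℤ) * (Int.gcd (α 0 0) (α 1 0) : ℤ) ^ 2) := by
  obtain ⟨a, b, d, ha, hd, had, hgcd, hj⟩ := jfun_levelMat Stubs.jfun_smul g α hα hg
  obtain ⟨M, hM⟩ := hN
  have hNpos : (0 : ℤ) < (N : ℤ) := by exact_mod_cast Nat.pos_of_ne_zero (NeZero.ne N)
  have hMpos : 0 < M := by
    rw [hM] at hNpos
    exact (mul_pos_iff_of_pos_left hα).1 hNpos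
  have hepos : 0 < M * a ^ 2 := by positivity
  set e : ℕ := (M * a ^ 2).toNat with he
  have heZ : (e : ℤ) = M * a ^ 2 := Int.toNat_of_nonneg hepos.le
  have : NeZero e := ⟨by
    intro h
    rw [h] at heZ
    simp only [Nat.cast_zero] at heZ
    omega⟩
  have hed : (e : ℤ) * d = N * a := by
    rw [heZ, hM, ← had]; ring
  have hξ : iota ((zetaK N ^ (M * a * b) : Kbarˣ) : Kbar) =
      Complex.exp (2 * π * Complex.I * b / d) := by
    rw [iota_zetaK_zpow]
    congr 1
    have h1 : ((N : ℕ) : ℂ) = (M : ℂ) * a * d := by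
      have : ((N : ℕ) : ℤ) = M * a * d := by rw [hM, ← had]; ring
      exact_mod_cast this
    have hM0 : (M : ℂ) ≠ 0 := by exact_mod_cast hMpos.ne'
    have ha0 : (a : ℂ) ≠ 0 := by exact_mod_cast ha.ne'
    have hd0 : (d : ℂ) ≠ 0 := by exact_mod_cast hd.ne'
    rw [h1]
    push_cast
    field_simp
  refine ⟨qExpand Kbar e (twist (zetaK N ^ (M * a * b)) (Jser 1)), ?_, ?_⟩
  · have h := hasTExp_tri (N := N) Stubs.hasTExp_jfun a b d ha hd e hed _ hξ
    have hfun : (fun τ => jfun (g • τ)) = fun τ => jfun (triMat a b d ha hd • τ) := funext hj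
    rw [hfun]
    exact h
  · rw [order_qExpand, order_twist, order_Jser_one, heZ, ← hgcd, hM, ← had]
    ring

theorem exists_hasTExp_of_mem {f : ℍ → ℂ} (hf : f ∈ AL N) :
    ∃ s : LaurentSeries Kbar, HasTExp N f s := by
  induction hf using Algebra.adjoin_induction with
  | mem f hf =>
    obtain ⟨g, ⟨α, h1, h2, h3⟩, rfl⟩ := hf
    obtain ⟨s, hs, -⟩ := exists_hasTExp_gen (N := N) g α h1 h2 h3
    exact ⟨s, hs⟩
  | algebraMap c => exact ⟨HahnSeries.C c, HasTExp.const (N := N) c⟩
  | add f g _ _ hf hg =>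
    obtain ⟨s, hs⟩ := hf
    obtain ⟨s', hs'⟩ := hg
    exact ⟨s + s', hs.add hs'⟩
  | mul f g _ _ hf hg =>
    obtain ⟨s, hs⟩ := hf
    obtain ⟨s', hs'⟩ := hg
    exact ⟨s * s', hs.mul hs'⟩

theorem exists_hasTExp (f : AL N) : ∃ s : LaurentSeries Kbar, HasTExp N f.1 s :=
  exists_hasTExp_of_mem f.2

/-- The `t`-expansion of an element of `AL N`. -/
noncomputable def texpFun (f : AL N) : LaurentSeries Kbar := (exists_hasTExp f).choose

theorem hasTExp_texpFun (f : AL N) : HasTExp N f.1 (texpFun f) := (exists_hasTExp f).choose_spec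

theorem texpFun_eq {f : AL N} {s : LaurentSeries Kbar} (h : HasTExp N f.1 s) : texpFun f = s :=
  (hasTExp_texpFun f).unique h

variable (N) in
/-- The `t`-expansion homomorphism. -/
noncomputable def texp : AL N →ₐ[Kbar] LaurentSeries Kbar where
  toFun := texpFun
  map_one' := texpFun_eq (by
    have h := HasTExp.const (N := N) 1
    rw [map_one, map_one] at h
    exact h)
  map_mul' f g := texpFun_eq ((hasTExp_texpFun f).mul (hasTExp_texpFun g))
  map_zero' := texpFun_eq (by
    have h := HasTExp.const (N := N) 0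
    rw [map_zero, map_zero] at h
    exact h)
  map_add' f g := texpFun_eq ((hasTExp_texpFun f).add (hasTExp_texpFun g))
  commutes' c := texpFun_eq (by
    rw [algebraMap_laurentSeries_eq_single]
    exact HasTExp.const (N := N) c)

theorem hasTExp_texp (f : AL N) : HasTExp N f.1 (texp N f) := hasTExp_texpFun f

theorem texp_eq {f : AL N} {s : LaurentSeries Kbar} (h : HasTExp N f.1 s) : texp N f = s :=
  texpFun_eq h

theorem texp_injective : Function.Injective (texp N) := by
  rw [injective_iff_map_eq_zero]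
  intro f hf
  have h := hasTExp_texp f
  rw [hf] at h
  exact Subtype.ext h.eq_zero

instance instIsDomainAL : IsDomain (AL N) :=
  texp_injective.isDomain (texp N).toRingHom

/-- `T` acts on expansions by the twist by `ζ_N⁻¹`. -/
theorem texp_T_smul (f : AL N) : texp N (ModularGroup.T • f) = twist (zetaK N)⁻¹ (texp N f) :=
  texp_eq (hasTExp_T_inv (hasTExp_texp f))

/-- the expansion of `j (d τ)` is `j (q ^ d)` with `q = t ^ N`. -/
theorem texp_jd (d : ℕ) [NeZero d] (hd : d ∣ N) :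
    texp N (jd N d hd) = qExpand Kbar N (Jser d) := by
  apply texp_eq
  have hdpos : (0 : ℤ) < (d : ℤ) := by exact_mod_cast Nat.pos_of_ne_zero (NeZero.ne d)
  have : NeZero (N * d) := ⟨mul_ne_zero (NeZero.ne N) (NeZero.ne d)⟩
  have h := hasTExp_tri (N := N) Stubs.hasTExp_jfun (d : ℤ) 0 1 hdpos one_pos (N * d)
    (by push_cast; ring) 1 (by simp)
  rw [twist_one] at h
  rw [Jser_eq_qExpand d, qExpand_qExpand]
  have hmat : triMat (d : ℤ) 0 1 hdpos one_pos = dilMat d := by
    apply Units.ext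
    ext i j
    fin_cases i <;> fin_cases j <;> simp [triMat, dilMat]
  rw [hmat] at h
  exact h

end Fermat.Agent.S24.B
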