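/-
S24 block B (skeleton by helper216).  TASK S24-B09.
The field `LN N = Frac (AL N)` with its `SL(2,ℤ)`-action, and the embedding
`Psi N : FN N →ₐ[ℚ̄] LN N`.
-/
import Fermat.Agent.S24.B.TExp
import Fermat.Agent.S24.Formal

set_option autoImplicit false

namespace Fermat.Agent.S24.B

open UpperHalfPlane ModularCurve IntermediateField
open scoped MatrixGroups Real

variable (N : ℕ) [NeZero N]

/-- The field generated by the functions `j ∘ α`. -/
abbrev LN : Type := FractionRing (AL N)

/-- shortcut instance (the generic search is very slow) -/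
noncomputable instance instSMulALLN : SMul (AL N) (LN N) := Algebra.toSMul

/-- shortcut instance (the generic search is very slow) -/
noncomputable instance instModuleKbarFN : Module Kbar (FN N) := Algebra.toModule

/-- shortcut instance (the generic search is very slow) -/
noncomputable instance instModuleKbarLN : Module Kbar (LN N) := Algebra.toModule

noncomputable instance instActionLN : MulSemiringAction SL(2, ℤ) (LN N) :=
  IsFractionRing.mulSemiringAction SL(2, ℤ) (AL N) (LN N)

instance instSMulDistribClassLN : SMulDistribClass SL(2, ℤ) (AL N) (LN N) :=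
  IsFractionRing.smulDistribClass SL(2, ℤ) (AL N) (LN N)

variable {N}

theorem smul_algebraMap_AL (γ : SL(2, ℤ)) (f : AL N) :
    γ • algebraMap (AL N) (LN N) f = algebraMap (AL N) (LN N) (γ • f) :=
  (algebraMap.coe_smul' γ f (LN N)).symm

theorem smul_algebraMap_Kbar (γ : SL(2, ℤ)) (c : Kbar) :
    γ • algebraMap Kbar (LN N) c = algebraMap Kbar (LN N) c := by
  rw [IsScalarTower.algebraMap_apply Kbar (AL N) (LN N), smul_algebraMap_AL, smul_AL_algebraMap]

variable (N)

/-- The `t`-expansion on the fraction field. -/
noncomputable def texpL : LN N →ₐ[Kbar] LaurentSeries Kbar :=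
  IsFractionRing.liftAlgHom (g := texp N) texp_injective

variable {N}

theorem texpL_algebraMap (f : AL N) : texpL N (algebraMap (AL N) (LN N) f) = texp N f :=
  IsFractionRing.liftAlgHom_apply .. |>.trans (IsFractionRing.lift_algebraMap _ _)

theorem texpL_injective : Function.Injective (texpL N) := (texpL N).toRingHom.injective

theorem texpL_T_smul (g : LN N) :
    texpL N (ModularGroup.T • g) = twist (zetaK N)⁻¹ (texpL N g) := by
  have h : (texpL N).toRingHom.comp
        (MulSemiringAction.toRingHom SL(2, ℤ) (LN N) ModularGroup.T) =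
      (twist (zetaK N)⁻¹).comp (texpL N).toRingHom := by
    refine IsLocalization.ringHom_ext (nonZeroDivisors (AL N)) ?_
    refine RingHom.ext fun f => ?_
    show texpL N (ModularGroup.T • algebraMap (AL N) (LN N) f) =
      twist (zetaK N)⁻¹ (texpL N (algebraMap (AL N) (LN N) f))
    rw [smul_algebraMap_AL, texpL_algebraMap, texpL_algebraMap, texp_T_smul]
  exact RingHom.congr_fun h g

variable (N)

/-- `f(q) ↦ f(t ^ N)` on the function field. -/
noncomputable def phi1 : FN N →ₐ[Kbar] LaurentSeries Kbar where
  toFun f := qExpand Kbar N f.1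
  map_one' := map_one _
  map_mul' _ _ := map_mul _ _ _
  map_zero' := map_zero _
  map_add' _ _ := map_add _ _ _
  commutes' c := by
    show qExpand Kbar N (algebraMap Kbar (LaurentSeries Kbar) c) = _
    rw [algebraMap_laurentSeries_eq_single, qExpand_single, mul_zero]

variable {N}

theorem phi1_JF (d : ℕ) [NeZero d] (hd : d ∣ N) :
    phi1 N (JF N d hd) = texpL N (algebraMap (AL N) (LN N) (jd N d hd)) := by
  rw [texpL_algebraMap, texp_jd]
  rfl

set_option linter.unusedVariables false in
/-- two `ℚ̄`-algebra homs (or more generally a closed condition) on `FN N` can be checked on the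
generators `JF N d`. -/
theorem FN_induction {P : FN N → Prop} (hJ : ∀ (d : ℕ) (_ : NeZero d) (hd : d ∣ N), P (JF N d hd))
    (hc : ∀ c : Kbar, P (algebraMap Kbar (FN N) c)) (hadd : ∀ f g, P f → P g → P (f + g))
    (hneg : ∀ f, P f → P (-f))
    (hmul : ∀ f g, P f → P g → P (f * g)) (hinv : ∀ f, P f → P f⁻¹) (f : FN N) : P f := by
  have hf : f ∈ IntermediateField.adjoin Kbar
      {f : FN N | ∃ (d : ℕ) (_ : NeZero d) (hd : d ∣ N), f = JF N d hd} := by
    rw [Formal.adjoin_JF_eq_top N]
    exact IntermediateField.mem_top
  induction hf using IntermediateField.adjoin_induction with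
  | mem y hy =>
    obtain ⟨d, hne, hd, rfl⟩ := hy
    exact hJ d hne hd
  | algebraMap c => exact hc c
  | add y z _ _ hy hz => exact hadd y z hy hz
  | inv y _ hy => exact hinv y hy
  | mul y z _ _ hy hz => exact hmul y z hy hz

theorem phi1_mem_fieldRange (f : FN N) : phi1 N f ∈ (texpL N).fieldRange := by
  induction f using FN_induction with
  | hJ d _ hd => exact ⟨_, (phi1_JF d hd).symm⟩
  | hc c =>
    rw [AlgHom.commutes]
    exact IntermediateField.algebraMap_mem _ c
  | hadd f g hf hg => rw [map_add]; exact add_mem hf hg
  | hneg f hf => rw [map_neg]; exact neg_mem hf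
  | hmul f g hf hg => rw [map_mul]; exact mul_mem hf hg
  | hinv f hf => rw [map_inv₀]; exact inv_mem hf

theorem exists_texpL_eq (f : FN N) : ∃ g : LN N, texpL N g = phi1 N f := phi1_mem_fieldRange f

variable (N)

/-- The embedding of the function field of `X₀(N)` in the field of modular functions. -/
noncomputable def Psi : FN N →ₐ[Kbar] LN N where
  toFun f := (exists_texpL_eq f).choose
  map_one' := texpL_injective (by rw [(exists_texpL_eq _).choose_spec, map_one, map_one])
  map_mul' f g := texpL_injective (by
    rw [(exists_texpL_eq _).choose_spec, map_mul, map_mul, (exists_texpL_eq _).choose_spec,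
      (exists_texpL_eq _).choose_spec])
  map_zero' := texpL_injective (by rw [(exists_texpL_eq _).choose_spec, map_zero, map_zero])
  map_add' f g := texpL_injective (by
    rw [(exists_texpL_eq _).choose_spec, map_add, map_add, (exists_texpL_eq _).choose_spec,
      (exists_texpL_eq _).choose_spec])
  commutes' c := texpL_injective (by
    rw [(exists_texpL_eq _).choose_spec, AlgHom.commutes, AlgHom.commutes])

variable {N}

theorem texpL_Psi (f : FN N) : texpL N (Psi N f) = phi1 N f := (exists_texpL_eq f).choose_spec

theorem Psi_JF (d : ℕ) [NeZero d] (hd : d ∣ N) :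
    Psi N (JF N d hd) = algebraMap (AL N) (LN N) (jd N d hd) :=
  texpL_injective (by rw [texpL_Psi, phi1_JF])

end Fermat.Agent.S24.B
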