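/-
S24 block B (skeleton by helper216, proofs by helper232).  TASK S24-B10.
The stabiliser of `Psi (FN N)` in `SL(2,ℤ)` is `Γ₀(N)`;  `Γ(N)` acts trivially on `AL N`.
-/
import Fermat.Agent.S24.B.Field

set_option autoImplicit false

namespace Fermat.Agent.S24.B

open UpperHalfPlane ModularCurve IntermediateField CongruenceSubgroup
open scoped MatrixGroups Real

variable {N : ℕ} [NeZero N]

/-- If `g γ = γ' g` then `j (g γ τ) = j (g τ)`. -/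
theorem jfun_smul_smul_of_comm (g : GL (Fin 2) ℝ) (γ γ' : SL(2, ℤ))
    (h : g * (γ : GL (Fin 2) ℝ) = (γ' : GL (Fin 2) ℝ) * g) (τ : ℍ) :
    jfun (g • γ • τ) = jfun (g • τ) := by
  have h1 : g • γ • τ = γ' • g • τ := by
    show g • (γ : GL (Fin 2) ℝ) • τ = (γ' : GL (Fin 2) ℝ) • g • τ
    rw [← mul_smul, ← mul_smul, h]
  rw [h1, Stubs.jfun_smul]

/-- integral version of the commutation hypothesis -/
theorem jfun_smul_smul_of_int_comm (g : GL (Fin 2) ℝ) (α : Matrix (Fin 2) (Fin 2) ℤ)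
    (hg : (g : Matrix (Fin 2) (Fin 2) ℝ) = α.map (Int.cast : ℤ → ℝ)) (γ γ' : SL(2, ℤ))
    (h : α * γ.1 = γ'.1 * α) (τ : ℍ) :
    jfun (g • γ • τ) = jfun (g • τ) := by
  refine jfun_smul_smul_of_comm g γ γ' ?_ τ
  apply Units.ext
  rw [Units.val_mul, Units.val_mul, hg]
  have h2 := congrArg (fun M : Matrix (Fin 2) (Fin 2) ℤ => M.map (Int.cast : ℤ → ℝ)) h
  have e1 : ((γ : GL (Fin 2) ℝ) : Matrix (Fin 2) (Fin 2) ℝ) = γ.1.map (Int.cast : ℤ → ℝ) := by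
    ext i j; simp
  have e2 : ((γ' : GL (Fin 2) ℝ) : Matrix (Fin 2) (Fin 2) ℝ) = γ'.1.map (Int.cast : ℤ → ℝ) := by
    ext i j; simp
  rw [e1, e2]
  have m1 := Matrix.map_mul (L := α) (M := γ.1) (f := Int.castRingHom ℝ)
  have m2 := Matrix.map_mul (L := γ'.1) (M := α) (f := Int.castRingHom ℝ)
  simp only [Int.coe_castRingHom] at m1 m2
  rw [← m1, ← m2]
  exact h2

theorem coe_dilMat (d : ℕ) [NeZero d] :
    (dilMat d : Matrix (Fin 2) (Fin 2) ℝ) = (!![(d : ℤ), 0; 0, 1]).map (Int.cast : ℤ → ℝ) := by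
  ext i j
  fin_cases i <;> fin_cases j <;> simp [dilMat]

/-- `j (d δ τ) = j (d τ)` if `d` divides the lower left entry of `δ`. -/
theorem jfun_dilMat_smul_smul (d : ℕ) [NeZero d] (δ : SL(2, ℤ)) (hδ : (d : ℤ) ∣ δ 1 0) (τ : ℍ) :
    jfun (dilMat d • δ • τ) = jfun (dilMat d • τ) := by
  obtain ⟨c, hc⟩ := hδ
  have hdet : δ 0 0 * δ 1 1 - δ 0 1 * δ 1 0 = 1 := by
    have := δ.2
    rwa [Matrix.det_fin_two] at this
  let δ' : SL(2, ℤ) := ⟨!![δ 0 0, d * δ 0 1; c, δ 1 1], by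
    rw [Matrix.det_fin_two_of]
    rw [hc] at hdet
    linear_combination hdet⟩
  refine jfun_smul_smul_of_int_comm (dilMat d) _ (coe_dilMat d) δ δ' ?_ τ
  ext i j
  fin_cases i <;> fin_cases j <;> simp [δ', Matrix.mul_apply, Fin.sum_univ_two, hc, mul_comm]

omit [NeZero N] in
theorem smul_jd_of_dvd (γ : SL(2, ℤ)) (d : ℕ) [NeZero d] (hd : d ∣ N) (h : (d : ℤ) ∣ γ⁻¹ 1 0) :
    γ • jd N d hd = jd N d hd := by
  apply Subtype.ext
  funext τ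
  exact jfun_dilMat_smul_smul d γ⁻¹ h τ

set_option linter.unusedSectionVars false in
/-- `j (d γ⁻¹ τ) = j (d τ)` for `γ ∈ Γ₀(N)`, `d ∣ N`. -/
theorem smul_jd_of_mem_Gamma0 (γ : SL(2, ℤ)) (hγ : γ ∈ Gamma0 N) (d : ℕ) [NeZero d] (hd : d ∣ N) :
    γ • jd N d hd = jd N d hd := by
  refine smul_jd_of_dvd γ d hd ?_
  have h1 : γ⁻¹ ∈ Gamma0 N := inv_mem hγ
  rw [Gamma0_mem, ZMod.intCast_zmod_eq_zero_iff_dvd] at h1
  exact (Int.natCast_dvd_natCast.mpr hd).trans h1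

theorem smul_Psi_of_mem_Gamma0 (γ : SL(2, ℤ)) (hγ : γ ∈ Gamma0 N) (f : FN N) :
    γ • Psi N f = Psi N f := by
  refine FN_induction (P := fun f => γ • Psi N f = Psi N f) ?_ ?_ ?_ ?_ ?_ ?_ f
  · intro d _ hd
    rw [Psi_JF, smul_algebraMap_AL, smul_jd_of_mem_Gamma0 γ hγ]
  · intro c
    rw [AlgHom.commutes, smul_algebraMap_Kbar]
  · intro f g hf hg
    rw [map_add, smul_add, hf, hg]
  · intro f hf
    rw [map_neg, smul_neg, hf]
  · intro f g hf hg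
    rw [map_mul, smul_mul', hf, hg]
  · intro f hf
    rw [map_inv₀, smul_inv'', hf]

theorem smul_Psi_jF (γ : SL(2, ℤ)) : γ • Psi N (jF N) = Psi N (jF N) := by
  show γ • Psi N (JF N 1 (one_dvd N)) = Psi N (JF N 1 (one_dvd N))
  rw [Psi_JF, smul_algebraMap_AL, smul_jd_of_dvd γ 1 (one_dvd N) (by simp)]

/-- uses the order of the `t`-expansion of `j ∘ (diag(N,1) γ⁻¹)`, see `exists_hasTExp_gen`. -/
theorem mem_Gamma0_of_smul_jd (γ : SL(2, ℤ)) (h : γ • jd N N dvd_rfl = jd N N dvd_rfl) :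
    γ ∈ Gamma0 N := by
  have hN0 : (N : ℤ) ≠ 0 := by exact_mod_cast NeZero.ne N
  have hNpos : (0 : ℤ) < N := by exact_mod_cast Nat.pos_of_ne_zero (NeZero.ne N)
  set δ : SL(2, ℤ) := γ⁻¹ with hδ
  -- the two matrices
  set α₂ : Matrix (Fin 2) (Fin 2) ℤ := !![(N : ℤ), 0; 0, 1] with hα₂
  set α₁ : Matrix (Fin 2) (Fin 2) ℤ := α₂ * δ.1 with hα₁
  have hdet₂ : α₂.det = N := by simp [hα₂]
  have hdet₁ : α₁.det = N := by rw [hα₁, Matrix.det_mul, hdet₂, δ.2, mul_one]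
  have hg₁ : ((dilMat N * (δ : GL (Fin 2) ℝ) : GL (Fin 2) ℝ) : Matrix (Fin 2) (Fin 2) ℝ)
      = α₁.map (Int.cast : ℤ → ℝ) := by
    rw [Units.val_mul, coe_dilMat, hα₁]
    have e1 : ((δ : GL (Fin 2) ℝ) : Matrix (Fin 2) (Fin 2) ℝ) = δ.1.map (Int.cast : ℤ → ℝ) := by
      ext i j; simp
    have m1 := Matrix.map_mul (L := α₂) (M := δ.1) (f := Int.castRingHom ℝ)
    simp only [Int.coe_castRingHom] at m1
    rw [e1, m1]
  obtain ⟨s₁, hs₁, ho₁⟩ := exists_hasTExp_gen (N := N) (dilMat N * (δ : GL (Fin 2) ℝ)) α₁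
    (by rw [hdet₁]; exact hNpos) (by rw [hdet₁]) hg₁
  obtain ⟨s₂, hs₂, ho₂⟩ := exists_hasTExp_gen (N := N) (dilMat N) α₂
    (by rw [hdet₂]; exact hNpos) (by rw [hdet₂]) (coe_dilMat N)
  have hfun : (fun τ : ℍ => jfun ((dilMat N * (δ : GL (Fin 2) ℝ)) • τ))
      = fun τ : ℍ => jfun (dilMat N • τ) := by
    funext τ
    have := congrFun (congrArg Subtype.val h) τ
    rw [mul_smul]
    exact this
  rw [hfun] at hs₁
  have hss : s₁ = s₂ := hs₁.unique hs₂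
  rw [hss, hdet₁] at ho₁
  rw [hdet₂] at ho₂
  have e00 : α₁ 0 0 = N * δ 0 0 := by
    rw [hα₁, Matrix.mul_apply, Fin.sum_univ_two, hα₂]; simp
  have e10 : α₁ 1 0 = δ 1 0 := by
    rw [hα₁, Matrix.mul_apply, Fin.sum_univ_two, hα₂]; simp
  have f00 : α₂ 0 0 = N := by simp [hα₂]
  have f10 : α₂ 1 0 = 0 := by simp [hα₂]
  rw [e00, e10] at ho₁
  rw [f00, f10] at ho₂
  have hsq : ((Int.gcd (N * δ 0 0) (δ 1 0) : ℤ)) ^ 2 = ((Int.gcd (N : ℤ) 0 : ℤ)) ^ 2 := by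
    have : (N : ℤ) * ((Int.gcd (N * δ 0 0) (δ 1 0) : ℤ)) ^ 2
        = (N : ℤ) * ((Int.gcd (N : ℤ) 0 : ℤ)) ^ 2 := by
      linear_combination ho₁ - ho₂
    exact mul_left_cancel₀ hN0 this
  have hgcd : (Int.gcd (N * δ 0 0) (δ 1 0) : ℤ) = N := by
    have h0 : ((Int.gcd (N : ℤ) 0 : ℕ) : ℤ) = N := by simp
    rw [h0] at hsq
    have h1 : (0 : ℤ) ≤ (Int.gcd (N * δ 0 0) (δ 1 0) : ℤ) := Int.natCast_nonneg _
    exact (pow_left_inj₀ h1 hNpos.le (by norm_num)).1 hsq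
  have hdvd : (N : ℤ) ∣ δ 1 0 := by
    rw [← hgcd]
    exact Int.gcd_dvd_right _ _
  have hmem : δ ∈ Gamma0 N := by
    rw [Gamma0_mem, ZMod.intCast_zmod_eq_zero_iff_dvd]
    exact hdvd
  have := inv_mem hmem
  rwa [hδ, inv_inv] at this

theorem mem_Gamma0_of_smul_Psi (γ : SL(2, ℤ)) (h : ∀ f : FN N, γ • Psi N f = Psi N f) :
    γ ∈ Gamma0 N := by
  apply mem_Gamma0_of_smul_jd
  have h1 := h (JF N N dvd_rfl)
  rw [Psi_JF, smul_algebraMap_AL] at h1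
  exact IsFractionRing.injective (AL N) (LN N) h1

omit [NeZero N] in
/-- `α δ = δ' α` with `δ' ∈ SL(2,ℤ)` for `δ ∈ Γ(N)`, `det α ∣ N`. -/
theorem exists_conj_of_mem_Gamma (δ : SL(2, ℤ)) (hδ : δ ∈ Gamma N)
    (α : Matrix (Fin 2) (Fin 2) ℤ) (hα : 0 < α.det) (hN : α.det ∣ (N : ℤ)) :
    ∃ δ' : SL(2, ℤ), α * δ.1 = δ'.1 * α := by
  obtain ⟨k, hk⟩ := hN
  rw [Gamma_mem] at hδ
  obtain ⟨h00, h01, h10, h11⟩ := hδ
  have d00 : (N : ℤ) ∣ δ 0 0 - 1 := by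
    rw [← ZMod.intCast_zmod_eq_zero_iff_dvd]; push_cast; rw [h00]; ring
  have d01 : (N : ℤ) ∣ δ 0 1 := by
    rw [← ZMod.intCast_zmod_eq_zero_iff_dvd]; exact h01
  have d10 : (N : ℤ) ∣ δ 1 0 := by
    rw [← ZMod.intCast_zmod_eq_zero_iff_dvd]; exact h10
  have d11 : (N : ℤ) ∣ δ 1 1 - 1 := by
    rw [← ZMod.intCast_zmod_eq_zero_iff_dvd]; push_cast; rw [h11]; ring
  obtain ⟨m00, e00⟩ := d00
  obtain ⟨m01, e01⟩ := d01
  obtain ⟨m10, e10⟩ := d10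
  obtain ⟨m11, e11⟩ := d11
  set M : Matrix (Fin 2) (Fin 2) ℤ := !![m00, m01; m10, m11] with hM
  have hδM : δ.1 = 1 + (N : ℤ) • M := by
    ext i j
    fin_cases i <;> fin_cases j <;> simp [hM] <;> linarith
  set B : Matrix (Fin 2) (Fin 2) ℤ := 1 + k • (α * M * α.adjugate) with hB
  have hBα : α * δ.1 = B * α := by
    rw [hδM, hB, add_mul, one_mul, mul_add, mul_one, Matrix.smul_mul, Matrix.mul_assoc (α * M),
      Matrix.adjugate_mul, Matrix.mul_smul, Matrix.mul_smul, Matrix.mul_one, smul_smul, hk,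
      mul_comm k]
  have hdetB : B.det = 1 := by
    have h1 := congrArg Matrix.det hBα
    rw [Matrix.det_mul, Matrix.det_mul, δ.2, mul_one] at h1
    have h2 : α.det * 1 = α.det * B.det := by rw [mul_one, mul_comm]; exact h1
    exact (mul_left_cancel₀ hα.ne' h2).symm
  exact ⟨⟨B, hdetB⟩, hBα⟩

omit [NeZero N] in
theorem apply_smul_of_mem_Gamma (δ : SL(2, ℤ)) (hδ : δ ∈ Gamma N) {f : ℍ → ℂ} (hf : f ∈ AL N)
    (τ : ℍ) : f (δ • τ) = f τ := by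
  induction hf using Algebra.adjoin_induction with
  | mem f hf =>
    obtain ⟨g, ⟨α, h1, h2, h3⟩, rfl⟩ := hf
    obtain ⟨δ', hδ'⟩ := exists_conj_of_mem_Gamma δ hδ α h1 h2
    exact jfun_smul_smul_of_int_comm g α h3 δ δ' hδ' τ
  | algebraMap c => rfl
  | add f g _ _ hf hg => exact congrArg₂ (· + ·) hf hg
  | mul f g _ _ hf hg => exact congrArg₂ (· * ·) hf hg

/-- `α γ α⁻¹ ∈ SL(2,ℤ)` for `γ ∈ Γ(N)`, `det α ∣ N`. -/
theorem smul_of_mem_Gamma (γ : SL(2, ℤ)) (hγ : γ ∈ Gamma N) (f : AL N) : γ • f = f := by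
  apply Subtype.ext
  funext τ
  exact apply_smul_of_mem_Gamma γ⁻¹ (inv_mem hγ) f.2 τ

theorem finite_orbit (f : AL N) : (MulAction.orbit SL(2, ℤ) f).Finite := by
  have hle : Gamma N ≤ MulAction.stabilizer SL(2, ℤ) f := fun γ hγ => smul_of_mem_Gamma γ hγ f
  have h1 : (MulAction.stabilizer SL(2, ℤ) f).FiniteIndex := Subgroup.finiteIndex_of_le hle
  have h2 : Finite (SL(2, ℤ) ⧸ MulAction.stabilizer SL(2, ℤ) f) :=
    Subgroup.finite_quotient_of_finiteIndex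
  exact Set.finite_coe_iff.1 <|
    Finite.of_equiv _ (MulAction.orbitEquivQuotientStabilizer SL(2, ℤ) f).symm

end Fermat.Agent.S24.B
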