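/-
S24 block B (skeleton by helper216, proof by helper244).  TASK S24-B03.
Invariants of a fraction field under a group action with finite orbits.
-/
import Mathlib

set_option autoImplicit false

namespace Fermat.Agent.S24.B

variable {G A L : Type*} [Group G] [CommRing A] [IsDomain A] [MulSemiringAction G A]
  [Field L] [Algebra A L] [IsFractionRing A L] [MulSemiringAction G L] [SMulDistribClass G A L]

theorem exists_invariant_fraction (hfin : ∀ a : A, (MulAction.orbit G a).Finite)
    (g : L) (hg : ∀ γ : G, γ • g = g) :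
    ∃ a b : A, b ≠ 0 ∧ (∀ γ : G, γ • a = a) ∧ (∀ γ : G, γ • b = b) ∧
      g = algebraMap A L a / algebraMap A L b := by
  classical
  obtain ⟨a0, b0, hb0, rfl⟩ := IsFractionRing.div_surjective (A := A) g
  have hb0' : b0 ≠ 0 := nonZeroDivisors.ne_zero hb0
  set O : Finset A := (hfin b0).toFinset with hO
  have hmemO : ∀ x, x ∈ O ↔ x ∈ MulAction.orbit G b0 := fun x => by simp [hO]
  have hb0O : b0 ∈ O := (hmemO b0).2 (MulAction.mem_orbit_self b0)
  set b : A := ∏ x ∈ O, x with hb
  set b1 : A := ∏ x ∈ O.erase b0, x with hb1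
  have hbb : b = b0 * b1 := (Finset.mul_prod_erase O (fun x => x) hb0O).symm
  have hbne : b ≠ 0 := by
    rw [hb, Finset.prod_ne_zero_iff]
    intro x hx
    obtain ⟨γ, rfl⟩ := (hmemO x).1 hx
    exact (smul_ne_zero_iff_ne γ).2 hb0'
  have hbinv : ∀ γ : G, γ • b = b := by
    intro γ
    rw [hb, Finset.smul_prod']
    refine Finset.prod_bij (fun x _ => γ • x) ?_ ?_ ?_ ?_
    · intro x hx
      rw [hmemO] at hx ⊢
      obtain ⟨δ, rfl⟩ := hx
      exact ⟨γ * δ, mul_smul γ δ b0⟩
    · intro x _ y _ hxy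
      exact smul_left_cancel γ hxy
    · intro y hy
      refine ⟨γ⁻¹ • y, ?_, by simp⟩
      rw [hmemO] at hy ⊢
      obtain ⟨δ, rfl⟩ := hy
      exact ⟨γ⁻¹ * δ, mul_smul γ⁻¹ δ b0⟩
    · intro x _
      rfl
  have hinj : Function.Injective (algebraMap A L) := IsFractionRing.injective A L
  have hbL : algebraMap A L b ≠ 0 := fun h => hbne (hinj (by simpa using h))
  have hb0L : algebraMap A L b0 ≠ 0 := fun h => hb0' (hinj (by simpa using h))
  have hb1L : algebraMap A L b1 ≠ 0 := by
    intro h
    apply hbL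
    rw [hbb, map_mul, h, mul_zero]
  have hgeq : algebraMap A L a0 / algebraMap A L b0 =
      algebraMap A L (a0 * b1) / algebraMap A L b := by
    rw [hbb, map_mul, map_mul]
    field_simp
  refine ⟨a0 * b1, b, hbne, ?_, hbinv, hgeq⟩
  intro γ
  apply hinj
  have h1 : algebraMap A L (a0 * b1) =
      (algebraMap A L a0 / algebraMap A L b0) * algebraMap A L b := by
    rw [hgeq]; field_simp
  have h2 : algebraMap A L (γ • (a0 * b1)) = γ • algebraMap A L (a0 * b1) :=
    algebraMap.coe_smul' γ (a0 * b1) L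
  have h3 : algebraMap A L (γ • b) = γ • algebraMap A L b := algebraMap.coe_smul' γ b L
  rw [h2, h1, smul_mul', hg γ, ← h3, hbinv γ]

end Fermat.Agent.S24.B
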