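/-
S24 block B (skeleton by helper216, proofs by helper79).  TASK S24-B11.
A holomorphic `SL(2,ℤ)`-invariant function with a `t`-expansion with coefficients in `ℚ̄` is a
polynomial in `j` with coefficients in `ℚ̄`.
-/
import Fermat.Agent.S24.B.Stubs
import Fermat.Agent.S24.B.TExpBasic
import Fermat.Agent.S24.B.TExpTri

set_option autoImplicit false

namespace Fermat.Agent.S24.B

open UpperHalfPlane ModularCurve
open scoped MatrixGroups Real Manifold ModularForm

/-- A holomorphic `SL(2,ℤ)`-invariant function which is bounded at `i∞` is constant. -/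
theorem const_of_invariant_of_bounded (f : ℍ → ℂ) (hf : MDiff f)
    (hinv : ∀ (γ : SL(2, ℤ)) (τ : ℍ), f (γ • τ) = f τ) (hb : IsBoundedAtImInfty f) :
    ∃ c : ℂ, ∀ τ : ℍ, f τ = c := by
  have hslash : ∀ γ : SL(2, ℤ), f ∣[(0 : ℤ)] γ = f := by
    intro γ
    funext τ
    rw [ModularForm.SL_slash_apply]
    simp only [neg_zero, zpow_zero, mul_one]
    exact hinv γ τ
  let h : ModularForm 𝒮ℒ 0 :=
    { toFun := f
      slash_action_eq' := fun _ ⟨γ, hγ⟩ ↦ hγ ▸ hslash γ
      holo' := hf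
      bdd_at_cusps' {d} hd := by
        rw [Subgroup.IsArithmetic.isCusp_iff_isCusp_SL2Z] at hd
        rw [OnePoint.isBoundedAt_iff_forall_SL2Z hd]
        intro γ _
        rw [hslash γ]
        exact hb }
  obtain ⟨c, hc⟩ := ModularFormClass.levelOne_weight_zero_const h
  exact ⟨c, fun τ => congrFun hc τ⟩

/-- The coefficients of a product vanish below the sum of the bounds. -/
theorem coeff_mul_eq_zero_of_lt {C : Type*} [Field C] {s s' : LaurentSeries C} {a b : ℤ}
    (ha : ∀ n : ℤ, n < a → s.coeff n = 0) (hb : ∀ n : ℤ, n < b → s'.coeff n = 0) (n : ℤ)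
    (hn : n < a + b) : (s * s').coeff n = 0 := by
  rw [HahnSeries.coeff_mul]
  refine Finset.sum_eq_zero fun ij hij => ?_
  rw [Finset.mem_antidiagonal] at hij
  obtain ⟨h1, h2, h3⟩ := hij
  exfalso
  have h1' : a ≤ ij.1 := by
    by_contra hlt
    exact h1 (ha _ (not_le.mp hlt))
  have h2' : b ≤ ij.2 := by
    by_contra hlt
    exact h2 (hb _ (not_le.mp hlt))
  omega

/-- The `t`-expansion of `j`, `t = exp (2 π i τ / N)`. -/
theorem hasTExp_jfun_level (N : ℕ) [NeZero N] : HasTExp N jfun (qExpand Kbar N (Jser 1)) := by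
  have h := hasTExp_tri (N := N) Stubs.hasTExp_jfun 1 0 1 one_pos one_pos N (by ring) 1
    (by simp)
  rw [twist_one] at h
  have h2 : (fun τ => jfun (triMat 1 0 1 one_pos one_pos • τ)) = jfun := by
    funext τ
    congr 1
    apply UpperHalfPlane.ext
    rw [coe_triMat_smul]
    simp
  rwa [h2] at h

theorem qExpand_Jser_pow (N : ℕ) [NeZero N] (k : ℕ) :
    (qExpand Kbar N (Jser 1)) ^ k = qExpand Kbar N (coeffEmb Kbar (jq ^ k)) := by
  rw [Jser, qExpand_one_apply, map_pow, map_pow]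

theorem coeff_qExpand_Jser_pow_self (N : ℕ) [NeZero N] (k : ℕ) :
    ((qExpand Kbar N (Jser 1)) ^ k).coeff (-((N : ℤ) * k)) = 1 := by
  rw [qExpand_Jser_pow, show -((N : ℤ) * k) = (N : ℤ) * (-(k : ℤ)) by ring, qExpand_coeff_mul,
    coeffEmb_coeff, coeff_jq_pow_self, map_one]

theorem coeff_qExpand_Jser_pow_of_lt (N : ℕ) [NeZero N] (k : ℕ) (n : ℤ)
    (hn : n < -((N : ℤ) * k)) : ((qExpand Kbar N (Jser 1)) ^ k).coeff n = 0 := by
  rw [qExpand_Jser_pow]
  by_cases hdvd : (N : ℤ) ∣ n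
  · obtain ⟨m, rfl⟩ := hdvd
    have hN : (0 : ℤ) < N := by exact_mod_cast Nat.pos_of_ne_zero (NeZero.ne N)
    have hm : m < -(k : ℤ) := by
      by_contra hle
      have := mul_le_mul_of_nonneg_left (not_lt.mp hle) hN.le
      linarith
    rw [qExpand_coeff_mul, coeffEmb_coeff, coeff_jq_pow_of_lt hm, map_zero]
  · exact qExpand_coeff_of_not_dvd N _ hdvd

/-- The exponents of the `t`-expansion of a function invariant under `T` are divisible by `N`. -/
theorem dvd_of_coeff_ne_zero {N : ℕ} [NeZero N] {f : ℍ → ℂ}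
    (hinv : ∀ (γ : SL(2, ℤ)) (τ : ℍ), f (γ • τ) = f τ) {s : LaurentSeries Kbar}
    (hs : HasTExp N f s) (n : ℤ) (hn : s.coeff n ≠ 0) : (N : ℤ) ∣ n := by
  have h1 := hasTExp_T_inv hs
  have h2 : (fun τ => f (ModularGroup.T⁻¹ • τ)) = f := funext fun τ => hinv _ τ
  rw [h2] at h1
  have h3 := congrArg (fun x => x.coeff n) (h1.unique hs)
  simp only [twist_coeff] at h3
  have h4 : (((zetaK N)⁻¹ ^ n : Kbarˣ) : Kbar) = 1 := by
    have := mul_right_cancel₀ hn (h3.trans (one_mul _).symm)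
    exact this
  have h5 : (zetaK N) ^ n = 1 := by
    have : (zetaK N)⁻¹ ^ n = 1 := Units.ext h4
    rwa [inv_zpow, inv_eq_one] at this
  exact (isPrimitiveRoot_zetaK N).zpow_eq_one_iff_dvd n |>.mp h5

/-- An invariant holomorphic function whose expansion has only positive exponents vanishes. -/
theorem eq_zero_of_invariant {N : ℕ} [NeZero N] (f : ℍ → ℂ) (hf : MDiff f)
    (hinv : ∀ (γ : SL(2, ℤ)) (τ : ℍ), f (γ • τ) = f τ) (s : LaurentSeries Kbar)
    (hs : HasTExp N f s) (h0 : ∀ n : ℤ, n ≤ 0 → s.coeff n = 0) : ∀ τ : ℍ, f τ = 0 := by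
  have hN : (0 : ℤ) < N := by exact_mod_cast Nat.pos_of_ne_zero (NeZero.ne N)
  obtain ⟨c, hc⟩ := const_of_invariant_of_bounded f hf hinv
    (hs.isBoundedAtImInfty fun n hn => h0 n hn.le)
  have h1 : ∀ n : ℤ, n < N → s.coeff n = 0 := by
    intro n hn
    by_contra hne
    obtain ⟨m, rfl⟩ := dvd_of_coeff_ne_zero hinv hs n hne
    have hm : m ≤ 0 := by
      by_contra hlt
      have : (N : ℤ) * 1 ≤ N * m := mul_le_mul_of_nonneg_left (by omega) hN.le
      linarith
    exact hne (h0 _ (mul_nonpos_of_nonneg_of_nonpos hN.le hm))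
  have h2 : ∀ n : ℤ, n < -(N : ℤ) → (qExpand Kbar N (Jser 1)).coeff n = 0 := by
    intro n hn
    have := coeff_qExpand_Jser_pow_of_lt N 1 n (by simpa using hn)
    simpa using this
  have h3 : HasTExp N (f * jfun) (s * qExpand Kbar N (Jser 1)) := hs.mul (hasTExp_jfun_level N)
  obtain ⟨c', hc'⟩ := const_of_invariant_of_bounded (f * jfun) (hf.mul Stubs.mdiff_jfun)
    (fun γ τ => by simp only [Pi.mul_apply, hinv, Stubs.jfun_smul])
    (h3.isBoundedAtImInfty fun n hn => coeff_mul_eq_zero_of_lt h1 h2 n (by simpa using hn))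
  by_contra hne
  push Not at hne
  obtain ⟨τ₀, hτ₀⟩ := hne
  have hc0 : c ≠ 0 := by rwa [hc τ₀] at hτ₀
  obtain ⟨τ₁, hτ₁⟩ := Stubs.jfun_surjective 0
  obtain ⟨τ₂, hτ₂⟩ := Stubs.jfun_surjective 1
  have e1 := hc' τ₁
  have e2 := hc' τ₂
  simp only [Pi.mul_apply, hc, hτ₁, hτ₂, mul_zero, mul_one] at e1 e2
  exact hc0 (e2.trans e1.symm)

theorem exists_poly_of_invariant_aux {N : ℕ} [NeZero N] (k : ℕ) : ∀ (f : ℍ → ℂ) (_ : MDiff f)
    (_ : ∀ (γ : SL(2, ℤ)) (τ : ℍ), f (γ • τ) = f τ) (s : LaurentSeries Kbar)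
    (_ : HasTExp N f s) (_ : ∀ n : ℤ, n < -((N : ℤ) * k) → s.coeff n = 0),
    ∃ p : Polynomial Kbar, ∀ τ : ℍ, f τ = Polynomial.aeval (jfun τ) p := by
  have hN : (0 : ℤ) < N := by exact_mod_cast Nat.pos_of_ne_zero (NeZero.ne N)
  induction k with
  | zero =>
    intro f hf hinv s hs h0
    refine ⟨Polynomial.C (s.coeff 0), fun τ => ?_⟩
    have h1 : HasTExp N (f - fun _ => iota (s.coeff 0)) (s - HahnSeries.C (s.coeff 0)) :=
      hs.sub (HasTExp.const _)
    have h2 := eq_zero_of_invariant _ (hf.sub mdifferentiable_const)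
      (fun γ τ => by simp only [Pi.sub_apply, hinv]) _ h1 (by
        intro n hn
        rcases hn.lt_or_eq with hn | rfl
        · rw [HahnSeries.coeff_sub, h0 n (by simpa using hn), HahnSeries.C_apply,
            HahnSeries.coeff_single_of_ne hn.ne, sub_zero]
        · simp) τ
    rw [Polynomial.aeval_C, algebraMap_Kbar_complex]
    simpa [sub_eq_zero] using h2
  | succ k ih =>
    intro f hf hinv s hs h0
    set a : Kbar := s.coeff (-((N : ℤ) * (k + 1 : ℕ))) with ha
    have h1 : HasTExp N (f - (fun _ => iota a) * jfun ^ (k + 1))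
        (s - HahnSeries.C a * (qExpand Kbar N (Jser 1)) ^ (k + 1)) :=
      hs.sub ((HasTExp.const a).mul ((hasTExp_jfun_level N).pow (k + 1)))
    have hinv' : ∀ (γ : SL(2, ℤ)) (τ : ℍ),
        (f - (fun _ => iota a) * jfun ^ (k + 1) : ℍ → ℂ) (γ • τ) =
          (f - (fun _ => iota a) * jfun ^ (k + 1) : ℍ → ℂ) τ := fun γ τ => by
      simp only [Pi.sub_apply, Pi.mul_apply, Pi.pow_apply, hinv, Stubs.jfun_smul]
    obtain ⟨p, hp⟩ := ih _ (hf.sub (mdifferentiable_const.mul (Stubs.mdiff_jfun.pow (k + 1))))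
      hinv' _ h1 (by
        intro n hn
        by_contra hne
        obtain ⟨m, rfl⟩ := dvd_of_coeff_ne_zero hinv' h1 n hne
        apply hne
        have hm : m ≤ -((k + 1 : ℕ) : ℤ) := by
          by_contra hlt
          have : (N : ℤ) * (-(k : ℤ)) ≤ N * m :=
            mul_le_mul_of_nonneg_left (by push_cast at hlt; omega) hN.le
          linarith
        rw [HahnSeries.coeff_sub, HahnSeries.C_mul_eq_smul, HahnSeries.coeff_smul, smul_eq_mul]
        rcases hm.lt_or_eq with hm | rfl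
        · have hlt : (N : ℤ) * m < -((N : ℤ) * (k + 1 : ℕ)) := by
            have := mul_lt_mul_of_pos_left hm hN
            linarith
          rw [h0 _ hlt, coeff_qExpand_Jser_pow_of_lt N (k + 1) _ hlt, mul_zero, sub_zero]
        · rw [show (N : ℤ) * (-((k + 1 : ℕ) : ℤ)) = -((N : ℤ) * (k + 1 : ℕ)) by ring,
            coeff_qExpand_Jser_pow_self, mul_one, ← ha, sub_self])
    refine ⟨p + Polynomial.C a * Polynomial.X ^ (k + 1), fun τ => ?_⟩
    have := hp τ
    simp only [Pi.sub_apply, Pi.mul_apply, Pi.pow_apply] at this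
    rw [map_add, map_mul, map_pow, Polynomial.aeval_C, Polynomial.aeval_X,
      algebraMap_Kbar_complex, ← this]
    ring

theorem exists_poly_of_invariant {N : ℕ} [NeZero N] (f : ℍ → ℂ) (hf : MDiff f)
    (hinv : ∀ (γ : SL(2, ℤ)) (τ : ℍ), f (γ • τ) = f τ) (s : LaurentSeries Kbar)
    (hs : HasTExp N f s) :
    ∃ p : Polynomial Kbar, ∀ τ : ℍ, f τ = Polynomial.aeval (jfun τ) p := by
  have hN : (1 : ℤ) ≤ N := by exact_mod_cast Nat.pos_of_ne_zero (NeZero.ne N)
  refine exists_poly_of_invariant_aux (-s.order).toNat f hf hinv s hs fun n hn => ?_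
  apply HahnSeries.coeff_eq_zero_of_lt_order
  have h1 : -s.order ≤ ((-s.order).toNat : ℤ) := Int.self_le_toNat _
  have h2 : (0 : ℤ) ≤ ((-s.order).toNat : ℤ) := Int.natCast_nonneg _
  nlinarith

end Fermat.Agent.S24.B
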