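/-
S24 block B (skeleton by helper216).  TASK S24-B12 (proofs by helper161).
The `SL(2,ℤ)`-invariants of `LN N` are `ℚ̄(j)`.
-/
import Fermat.Agent.S24.B.Gamma0
import Fermat.Agent.S24.B.LevelOne
import Fermat.Agent.S24.B.InvFrac

set_option autoImplicit false

namespace Fermat.Agent.S24.B

open UpperHalfPlane ModularCurve IntermediateField CongruenceSubgroup
open scoped MatrixGroups Real

variable {N : ℕ} [NeZero N]

theorem dilMat_one : dilMat 1 = 1 := by
  ext i j
  fin_cases i <;> fin_cases j <;> simp [dilMat]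

theorem jd_one_apply (τ : ℍ) : (jd N 1 (one_dvd N)).1 τ = jfun τ := by
  show jfun (dilMat 1 • τ) = jfun τ
  rw [dilMat_one, one_smul]

/-- evaluation at `τ` as a `ℚ̄`-algebra homomorphism `AL N → ℂ`. -/
noncomputable def evalAL (N : ℕ) (τ : ℍ) : AL N →ₐ[Kbar] ℂ :=
  (Pi.evalAlgHom Kbar (fun _ : ℍ => ℂ) τ).comp (AL N).val

theorem evalAL_apply (τ : ℍ) (f : AL N) : evalAL N τ f = f.1 τ := rfl

theorem aeval_jd_one_apply (p : Polynomial Kbar) (τ : ℍ) :
    (Polynomial.aeval (jd N 1 (one_dvd N)) p).1 τ = Polynomial.aeval (jfun τ) p := by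
  rw [← evalAL_apply, ← Polynomial.aeval_algHom_apply, evalAL_apply, jd_one_apply]

theorem exists_poly_of_invariant_AL (f : AL N) (hf : ∀ γ : SL(2, ℤ), γ • f = f) :
    ∃ p : Polynomial Kbar, f = Polynomial.aeval (jd N 1 (one_dvd N)) p := by
  obtain ⟨p, hp⟩ := exists_poly_of_invariant (N := N) f.1 (Stubs.mdiff_of_mem_AL f.2)
    (fun γ τ => by
      have h := congrArg (fun g : AL N => g.1 τ) (hf γ⁻¹)
      simpa [smul_AL_apply] using h)
    (texp N f) (hasTExp_texp f)
  refine ⟨p, Subtype.ext (funext fun τ => ?_)⟩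
  rw [hp τ, aeval_jd_one_apply]

theorem aeval_jF_mem (p : Polynomial Kbar) : Polynomial.aeval (jF N) p ∈ Kbar⟮jF N⟯ :=
  IntermediateField.algebra_adjoin_le_adjoin Kbar _ (Polynomial.aeval_mem_adjoin_singleton Kbar _)

theorem Psi_aeval_jF (p : Polynomial Kbar) :
    Psi N (Polynomial.aeval (jF N) p) =
      algebraMap (AL N) (LN N) (Polynomial.aeval (jd N 1 (one_dvd N)) p) := by
  have h1 : Psi N (jF N) = algebraMap (AL N) (LN N) (jd N 1 (one_dvd N)) := Psi_JF 1 (one_dvd N)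
  rw [← Polynomial.aeval_algHom_apply, h1]
  exact Polynomial.aeval_algebraMap_apply (LN N) (jd N 1 (one_dvd N)) p

theorem invariants (g : LN N) (hg : ∀ γ : SL(2, ℤ), γ • g = g) :
    ∃ r ∈ Kbar⟮jF N⟯, Psi N r = g := by
  obtain ⟨a, b, _, ha, hb, rfl⟩ :=
    exists_invariant_fraction (G := SL(2, ℤ)) (A := AL N) (L := LN N) finite_orbit g hg
  obtain ⟨p, rfl⟩ := exists_poly_of_invariant_AL a ha
  obtain ⟨q, rfl⟩ := exists_poly_of_invariant_AL b hb
  refine ⟨Polynomial.aeval (jF N) p / Polynomial.aeval (jF N) q,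
    div_mem (aeval_jF_mem p) (aeval_jF_mem q), ?_⟩
  rw [map_div₀, Psi_aeval_jF, Psi_aeval_jF]

theorem isUniformization : IsUniformization (jF N) (Gamma0 N) (Psi N) where
  smul_algebraMap := smul_algebraMap_Kbar
  smul_of_mem := smul_Psi_of_mem_Gamma0
  smul_x := smul_Psi_jF
  mem_of_smul := mem_Gamma0_of_smul_Psi
  invariants := invariants

end Fermat.Agent.S24.B
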