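/-
S24 block B (skeleton by helper216, proof by helper287).  TASK S24-B02.
A local expansion of `L` on which `δ` acts by the twist by a primitive `E`-th root of unity gives an
`IsPointDatum`.
-/
import Fermat.Agent.S24.B.Laurent

set_option autoImplicit false

namespace Fermat.Agent.S24.B

open scoped WithZero

variable {K F L G C : Type*} [Field K] [Field F] [Algebra K F] [Field L] [Algebra K L]
  [Group G] [MulSemiringAction G L] [Field C] [Algebra K C]

/-- arithmetic: `E ∣ k * n → E / gcd E k ∣ n`. -/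
theorem div_gcd_dvd_of_dvd_mul (E k : ℕ) (hE : 0 < E) (n : ℤ) (h : (E : ℤ) ∣ (k : ℤ) * n) :
    ((E / Nat.gcd E k : ℕ) : ℤ) ∣ n := by
  set g := Nat.gcd E k with hg
  have hgpos : 0 < g := Nat.gcd_pos_of_pos_left k hE
  obtain ⟨E', hE'⟩ : g ∣ E := Nat.gcd_dvd_left E k
  obtain ⟨k', hk'⟩ : g ∣ k := Nat.gcd_dvd_right E k
  have hdiv : E / g = E' := by
    rw [hE']; exact Nat.mul_div_cancel_left E' hgpos
  have hcop : Nat.Coprime E' k' := by
    have := Nat.coprime_div_gcd_div_gcd (m := E) (n := k) hgpos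
    rw [← hg] at this
    have hk'' : k / g = k' := by
      rw [hk']; exact Nat.mul_div_cancel_left k' hgpos
    rwa [hdiv, hk''] at this
  rw [hdiv]
  have h2 : (E' : ℤ) ∣ (k' : ℤ) * n := by
    have h3 : ((g : ℤ) * (E' : ℤ)) ∣ (g : ℤ) * ((k' : ℤ) * n) := by
      have : ((E : ℕ) : ℤ) = (g : ℤ) * (E' : ℤ) := by
        conv_lhs => rw [hE']
        push_cast; ring
      rw [← this]
      have hk3 : ((k : ℕ) : ℤ) = (g : ℤ) * (k' : ℤ) := by
        conv_lhs => rw [hk']
        push_cast; ring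
      rw [hk3] at h
      rwa [mul_assoc] at h
    exact (mul_dvd_mul_iff_left (by exact_mod_cast hgpos.ne')).1 h3
  have hcopZ : IsCoprime (E' : ℤ) (k' : ℤ) := Nat.isCoprime_iff_coprime.2 hcop
  exact hcopZ.dvd_of_dvd_mul_left h2

theorem isPointDatum_of_expansion (Ψ : F →ₐ[K] L) (y : F) (δ : G) (E : ℕ) (hE : 0 < E)
    (φ : L →+* LaurentSeries C)
    (hφK : ∀ a : K, φ (algebraMap K L a) = HahnSeries.C (algebraMap K C a))
    (ζ : Cˣ) (hζ : IsPrimitiveRoot ζ E)
    (hδ : ∀ g : L, φ (δ • g) = twist ζ (φ g))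
    (hy : (φ (Ψ y)).order = (E : ℤ)) :
    IsPointDatum Ψ y ((lval C).comap φ) δ E := by
  have hinj : Function.Injective φ := φ.injective
  have hne : ∀ g : L, g ≠ 0 → φ g ≠ 0 := fun g hg h => hg (hinj (by rw [h, map_zero]))
  have hpow : ∀ (k : ℕ) (g : L), φ (δ ^ k • g) = twist (ζ ^ k) (φ g) := by
    intro k
    induction k with
    | zero => intro g; simp [twist_one]
    | succ k ih =>
      intro g
      rw [pow_succ, mul_smul, ih, hδ, twist_twist, pow_succ]
  refine ⟨hE, ?_, ?_, ?_, ?_⟩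
  · intro a ha
    rw [Valuation.comap_apply, hφK]
    have hc : algebraMap K C a ≠ 0 := by
      intro h
      exact ha ((algebraMap K C).injective (by rw [h, map_zero]))
    have hC : (HahnSeries.C (algebraMap K C a) : LaurentSeries C) ≠ 0 := by
      intro h
      exact hc (HahnSeries.C_injective (by rw [h, map_zero]))
    rw [lval_of_ne_zero hC, HahnSeries.order_C]
    simp
  · rw [Valuation.comap_apply]
    have h0 : φ (Ψ y) ≠ 0 := by
      intro h
      rw [h, HahnSeries.order_zero] at hy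
      have : (E : ℤ) = 0 := hy.symm
      omega
    rw [lval_of_ne_zero h0, hy]
  · intro g
    rw [Valuation.comap_apply, Valuation.comap_apply, hδ]
    by_cases hg : φ g = 0
    · rw [hg, map_zero]
    · have h1 : twist ζ (φ g) ≠ 0 := fun h => hg ((twist_eq_zero_iff ζ _).1 h)
      rw [lval_of_ne_zero h1, lval_of_ne_zero hg, order_twist]
  · intro k g hg hk
    have hφg : φ g ≠ 0 := hne g hg
    set n : ℤ := (φ g).order with hn
    have hcoef : (φ g).coeff n ≠ 0 := fun h => hφg (HahnSeries.coeff_order_eq_zero.1 h)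
    have h1 : twist (ζ ^ k) (φ g) = φ g := by rw [← hpow, hk]
    have h2 : ((((ζ ^ k) ^ n : Cˣ)) : C) * (φ g).coeff n = (φ g).coeff n := by
      rw [← twist_coeff, h1]
    have h3 : ((((ζ ^ k) ^ n : Cˣ)) : C) = 1 := by
      have := mul_right_cancel₀ hcoef (h2.trans (one_mul _).symm)
      exact this
    have h4 : ζ ^ ((k : ℤ) * n) = 1 := by
      have : (ζ ^ k) ^ n = 1 := Units.ext h3
      rwa [← zpow_natCast, ← zpow_mul] at this
    have h5 : (E : ℤ) ∣ (k : ℤ) * n := (hζ.zpow_eq_one_iff_dvd _).1 h4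
    obtain ⟨m, hm⟩ := div_gcd_dvd_of_dvd_mul E k hE n h5
    refine ⟨-m, ?_⟩
    rw [Valuation.comap_apply, lval_of_ne_zero hφg, ← hn, hm]
    congr 1
    ring

end Fermat.Agent.S24.B
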