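/-
S24 block B (skeleton by helper216, proofs by helper82).  TASK S24-B14.
Taylor expansions in the disc coordinate: existence, identity theorem, order.
-/
import Fermat.Agent.S24.B.WExpBasic

set_option autoImplicit false

namespace Fermat.Agent.S24.B

open UpperHalfPlane Filter Topology
open scoped MatrixGroups Real Manifold

variable {τ₀ : ℍ} {f g : ℍ → ℂ} {s s' : PowerSeries ℂ}

theorem wa_discInv_zero (τ₀ : ℍ) : discInv τ₀ 0 = (τ₀ : ℂ) := by simp [discInv]

theorem wa_analyticAt_discInv (τ₀ : ℍ) : AnalyticAt ℂ (discInv τ₀) 0 := by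
  unfold discInv
  apply AnalyticAt.div
  · fun_prop
  · fun_prop
  · simp

theorem wa_hasDerivAt_discInv_zero (τ₀ : ℍ) :
    HasDerivAt (discInv τ₀) ((τ₀ : ℂ) - (starRingEnd ℂ) (τ₀ : ℂ)) 0 := by
  have h := ((hasDerivAt_const (0 : ℂ) (τ₀ : ℂ)).sub
    ((hasDerivAt_id (0 : ℂ)).const_mul ((starRingEnd ℂ) (τ₀ : ℂ)))).div
    ((hasDerivAt_const (0 : ℂ) (1 : ℂ)).sub (hasDerivAt_id (0 : ℂ))) (by simp)
  exact h.congr_deriv (by simp; ring)

theorem wa_deriv_discInv_zero_ne (τ₀ : ℍ) : deriv (discInv τ₀) 0 ≠ 0 := by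
  rw [(wa_hasDerivAt_discInv_zero τ₀).deriv, Complex.sub_conj]
  have := τ₀.im_pos.ne'
  simpa using this

theorem wa_analyticAt_comp_ofComplex (hf : MDiff f) (τ₀ : ℍ) :
    AnalyticAt ℂ (fun z : ℂ => f (ofComplex z)) (τ₀ : ℂ) :=
  (UpperHalfPlane.mdifferentiable_iff.mp hf).analyticOnNhd isOpen_upperHalfPlaneSet τ₀ τ₀.im_pos

theorem wa_analyticAt_wfun (hf : MDiff f) (τ₀ : ℍ) :
    AnalyticAt ℂ (fun w : ℂ => f (ofComplex (discInv τ₀ w))) 0 := by
  have h1 : AnalyticAt ℂ (fun z : ℂ => f (ofComplex z)) (discInv τ₀ 0) := by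
    rw [wa_discInv_zero]; exact wa_analyticAt_comp_ofComplex hf τ₀
  exact h1.comp (wa_analyticAt_discInv τ₀)

/-- the Taylor series of `f` at `τ₀` in the disc coordinate. -/
noncomputable def taylorW (τ₀ : ℍ) (f : ℍ → ℂ) : PowerSeries ℂ :=
  PowerSeries.mk fun n =>
    iteratedDeriv n (fun w : ℂ => f (ofComplex (discInv τ₀ w))) 0 / (n.factorial : ℂ)

theorem hasWExp_taylorW (τ₀ : ℍ) (hf : MDiff f) : HasWExp τ₀ f (taylorW τ₀ f) := by
  have hp := (wa_analyticAt_wfun hf τ₀).hasFPowerSeriesAt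
  filter_upwards [hp.eventually_hasSum] with w hw
  simpa [taylorW, FormalMultilinearSeries.ofScalars, mul_comm] using hw

theorem exists_hasWExp (τ₀ : ℍ) (hf : MDiff f) : ∃ s : PowerSeries ℂ, HasWExp τ₀ f s :=
  ⟨_, hasWExp_taylorW τ₀ hf⟩

theorem wa_ordAt_eq_wfun (τ₀ : ℍ) (f : ℍ → ℂ) :
    ordAt τ₀ f = analyticOrderAt (fun w : ℂ => f (ofComplex (discInv τ₀ w))) 0 := by
  have h := analyticOrderAt_comp_of_deriv_ne_zero (f := fun z : ℂ => f (ofComplex z))
    (wa_analyticAt_discInv τ₀) (wa_deriv_discInv_zero_ne τ₀)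
  rw [wa_discInv_zero] at h
  exact h.symm

theorem HasWExp.order_eq (hf : MDiff f) (h : HasWExp τ₀ f s) : s.order = ordAt τ₀ f := by
  have hs : s = taylorW τ₀ f := h.unique (hasWExp_taylorW τ₀ hf)
  rw [wa_ordAt_eq_wfun]
  apply ENat.eq_of_forall_natCast_le_iff
  intro n
  rw [natCast_le_analyticOrderAt_iff_iteratedDeriv_eq_zero (wa_analyticAt_wfun hf τ₀)]
  constructor
  · intro hn i hi
    have h1 : PowerSeries.coeff i s = 0 :=
      PowerSeries.coeff_of_lt_order i (lt_of_lt_of_le (by exact_mod_cast hi) hn)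
    rw [hs, taylorW, PowerSeries.coeff_mk, div_eq_zero_iff] at h1
    rcases h1 with h1 | h1
    · exact h1
    · exact absurd h1 (by exact_mod_cast i.factorial_ne_zero)
  · intro hn
    apply PowerSeries.nat_le_order
    intro i hi
    rw [hs, taylorW, PowerSeries.coeff_mk, hn i hi, zero_div]

/-- identity theorem. -/
theorem HasWExp.eq_zero (hf : MDiff f) (h : HasWExp τ₀ f 0) : f = 0 := by
  have h1 : ordAt τ₀ f = ⊤ := by rw [← h.order_eq hf, PowerSeries.order_zero]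
  have h2 : ∀ᶠ z in 𝓝 (τ₀ : ℂ), f (ofComplex z) = 0 := analyticOrderAt_eq_top.mp h1
  have han := (UpperHalfPlane.mdifferentiable_iff.mp hf).analyticOnNhd isOpen_upperHalfPlaneSet
  have hpre : IsPreconnected {z : ℂ | 0 < z.im} :=
    (Complex.isConnected_of_upperHalfPlane subset_rfl (by grind)).isPreconnected
  have h3 := han.eqOn_zero_of_preconnected_of_eventuallyEq_zero hpre τ₀.im_pos h2
  funext τ
  have := h3 τ.im_pos
  simpa using this

end Fermat.Agent.S24.B
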