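/-
S24 block B (skeleton by helper216).  TASK S24-B16.
The Taylor expansion homomorphisms `wexp N τ₀ : AL N →+* ℂ⟦w⟧` and `wexpL N τ₀ : LN N →+* ℂ((w))`.
-/
import Fermat.Agent.S24.B.WExpAnalytic
import Fermat.Agent.S24.B.Field

set_option autoImplicit false

namespace Fermat.Agent.S24.B

open UpperHalfPlane Filter Topology
open scoped MatrixGroups Real Manifold

variable {N : ℕ} [NeZero N] (τ₀ : ℍ)

/-- The Taylor expansion of an element of `AL N` at `τ₀`. -/
noncomputable def wexpFun (f : AL N) : PowerSeries ℂ :=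
  (exists_hasWExp τ₀ (Stubs.mdiff_of_mem_AL f.2)).choose

theorem hasWExp_wexpFun (f : AL N) : HasWExp τ₀ f.1 (wexpFun τ₀ f) :=
  (exists_hasWExp τ₀ (Stubs.mdiff_of_mem_AL f.2)).choose_spec

variable {τ₀} in
theorem wexpFun_eq {f : AL N} {s : PowerSeries ℂ} (h : HasWExp τ₀ f.1 s) : wexpFun τ₀ f = s :=
  (hasWExp_wexpFun τ₀ f).unique h

variable (N) in
/-- The Taylor expansion homomorphism at `τ₀`. -/
noncomputable def wexp : AL N →+* PowerSeries ℂ where
  toFun := wexpFun τ₀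
  map_one' := wexpFun_eq (by
    have h := HasWExp.const (τ₀ := τ₀) 1
    rw [map_one] at h
    exact h)
  map_mul' f g := wexpFun_eq ((hasWExp_wexpFun τ₀ f).mul (hasWExp_wexpFun τ₀ g))
  map_zero' := wexpFun_eq (by
    have h := HasWExp.const (τ₀ := τ₀) 0
    rw [map_zero] at h
    exact h)
  map_add' f g := wexpFun_eq ((hasWExp_wexpFun τ₀ f).add (hasWExp_wexpFun τ₀ g))

theorem hasWExp_wexp (f : AL N) : HasWExp τ₀ f.1 (wexp N τ₀ f) := hasWExp_wexpFun τ₀ f

variable {τ₀} in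
theorem wexp_eq {f : AL N} {s : PowerSeries ℂ} (h : HasWExp τ₀ f.1 s) : wexp N τ₀ f = s :=
  wexpFun_eq h

theorem wexp_injective : Function.Injective (wexp N τ₀) := by
  rw [injective_iff_map_eq_zero]
  intro f hf
  have h := hasWExp_wexp τ₀ f
  rw [hf] at h
  exact Subtype.ext (h.eq_zero (Stubs.mdiff_of_mem_AL f.2))

theorem wexp_algebraMap (c : Kbar) :
    wexp N τ₀ (algebraMap Kbar (AL N) c) = PowerSeries.C (iota c) :=
  wexp_eq (HasWExp.const (iota c))

theorem order_wexp (f : AL N) : (wexp N τ₀ f).order = ordAt τ₀ f.1 :=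
  (hasWExp_wexp τ₀ f).order_eq (Stubs.mdiff_of_mem_AL f.2)

theorem ofPowerSeries_comp_wexp_injective :
    Function.Injective ((HahnSeries.ofPowerSeries ℤ ℂ).comp (wexp N τ₀)) :=
  HahnSeries.ofPowerSeries_injective.comp (wexp_injective τ₀)

variable (N) in
/-- The Laurent expansion at `τ₀` on the fraction field. -/
noncomputable def wexpL : LN N →+* LaurentSeries ℂ :=
  IsFractionRing.lift (ofPowerSeries_comp_wexp_injective (N := N) τ₀)

theorem wexpL_algebraMap (f : AL N) :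
    wexpL N τ₀ (algebraMap (AL N) (LN N) f) = HahnSeries.ofPowerSeries ℤ ℂ (wexp N τ₀ f) :=
  IsFractionRing.lift_algebraMap _ _

theorem wexpL_algebraMap_Kbar (c : Kbar) :
    wexpL N τ₀ (algebraMap Kbar (LN N) c) = HahnSeries.C (algebraMap Kbar ℂ c) := by
  rw [IsScalarTower.algebraMap_apply Kbar (AL N) (LN N), wexpL_algebraMap, wexp_algebraMap,
    HahnSeries.ofPowerSeries_C]
  rfl

/-- an element of `SL(2,ℤ)` which is the rotation `w ↦ μ w` acts on expansions by `twist μ`. -/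
theorem wexpL_smul (δ : SL(2, ℤ)) (μ : ℂˣ)
    (hδ : ∀ᶠ w in 𝓝 (0 : ℂ),
      δ⁻¹ • ofComplex (discInv τ₀ w) = ofComplex (discInv τ₀ ((μ : ℂ) * w))) (g : LN N) :
    wexpL N τ₀ (δ • g) = twist μ (wexpL N τ₀ g) := by
  have key : (wexpL N τ₀).comp (MulSemiringAction.toRingHom SL(2, ℤ) (LN N) δ) =
      (twist μ).comp (wexpL N τ₀) := by
    refine IsLocalization.ringHom_ext (nonZeroDivisors (AL N)) ?_
    ext1 f
    have h1 : wexp N τ₀ (δ • f) = PowerSeries.rescale (μ : ℂ) (wexp N τ₀ f) :=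
      wexp_eq ((hasWExp_wexp τ₀ f).comp (fun τ => δ⁻¹ • τ) μ hδ)
    simp only [RingHom.comp_apply, MulSemiringAction.toRingHom_apply]
    rw [smul_algebraMap_AL, wexpL_algebraMap, wexpL_algebraMap, twist_ofPowerSeries, h1]
  exact congrArg (fun φ : LN N →+* LaurentSeries ℂ => φ g) key

end Fermat.Agent.S24.B
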