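/-
S24 block B (skeleton by helper216).  TASK S24-B17 (proofs by helper161).
The four kinds of point data.
-/
import Fermat.Agent.S24.B.WExp
import Fermat.Agent.S24.B.Fixed
import Fermat.Agent.S24.B.PointDatum
import Fermat.Agent.S24.B.Invariants

set_option autoImplicit false

namespace Fermat.Agent.S24.B

open UpperHalfPlane Filter Topology
open scoped MatrixGroups Real Manifold WithZero

variable {N : ℕ} [NeZero N]

theorem Psi_jF_sub (c : Kbar) :
    Psi N (jF N - algebraMap Kbar (FN N) c) =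
      algebraMap (AL N) (LN N) (jd N 1 (one_dvd N) - algebraMap Kbar (AL N) c) := by
  have h1 : Psi N (jF N) = algebraMap (AL N) (LN N) (jd N 1 (one_dvd N)) := Psi_JF 1 (one_dvd N)
  rw [map_sub, map_sub, h1, AlgHom.commutes, ← IsScalarTower.algebraMap_apply Kbar (AL N) (LN N)]

theorem pointDatum_of_fixed (τ₀ : ℍ) (c : Kbar) (hc : jfun τ₀ = iota c) (δ : SL(2, ℤ)) (E : ℕ)
    (hE : 0 < E) (μ : ℂˣ) (hμ : IsPrimitiveRoot μ E)
    (hδ : ∀ᶠ w in 𝓝 (0 : ℂ),
      δ⁻¹ • ofComplex (discInv τ₀ w) = ofComplex (discInv τ₀ ((μ : ℂ) * w)))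
    (hord : ordAt τ₀ (fun τ => jfun τ - jfun τ₀) = E) :
    IsPointDatum (Psi N) (jF N - algebraMap Kbar (FN N) c) ((lval ℂ).comap (wexpL N τ₀)) δ E := by
  refine isPointDatum_of_expansion (Psi N) _ δ E hE (wexpL N τ₀) (wexpL_algebraMap_Kbar τ₀) μ hμ
    (wexpL_smul τ₀ δ μ hδ) ?_
  rw [Psi_jF_sub, wexpL_algebraMap]
  apply order_ofPowerSeries
  rw [order_wexp, ← hord]
  congr 1
  funext τ
  show (jd N 1 (one_dvd N)).1 τ - iota c = _
  rw [jd_one_apply, hc]

theorem pointDatum_generic (c : Kbar) (h0 : c ≠ 0) (h1 : c ≠ 1728) :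
    ∃ V : Valuation (LN N) ℤᵐ⁰,
      IsPointDatum (Psi N) (jF N - algebraMap Kbar (FN N) c) V (1 : SL(2, ℤ)) 1 := by
  obtain ⟨τ₀, hτ₀⟩ := Stubs.jfun_surjective (iota c)
  refine ⟨_, pointDatum_of_fixed τ₀ c hτ₀ 1 1 one_pos 1 IsPrimitiveRoot.one ?_ ?_⟩
  · refine Filter.Eventually.of_forall fun w => ?_
    rw [inv_one, one_smul, Units.val_one, one_mul]
  · rw [Nat.cast_one]
    refine Stubs.ordAt_jfun_generic τ₀ ?_ ?_
    · rw [hτ₀]
      exact fun h => h0 (iota_injective (by rw [h, map_zero]))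
    · rw [hτ₀]
      exact fun h => h1 (iota_injective (by rw [h, map_ofNat]))

theorem pointDatum_I : ∃ V : Valuation (LN N) ℤᵐ⁰,
    IsPointDatum (Psi N) (jF N - algebraMap Kbar (FN N) 1728) V ModularGroup.S 2 := by
  refine ⟨_, pointDatum_of_fixed UpperHalfPlane.I 1728 ?_ ModularGroup.S 2 two_pos (-1)
    isPrimitiveRoot_neg_one ?_ ?_⟩
  · rw [Stubs.jfun_I, map_ofNat]
  · simpa using S_inv_discInv
  · rw [Stubs.jfun_I]
    exact Stubs.ordAt_jfun_I

theorem pointDatum_rho : ∃ V : Valuation (LN N) ℤᵐ⁰,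
    IsPointDatum (Psi N) (jF N - algebraMap Kbar (FN N) 0) V
      (ModularGroup.S * ModularGroup.T) 3 := by
  refine ⟨_, pointDatum_of_fixed rho 0 ?_ (ModularGroup.S * ModularGroup.T) 3 (by norm_num)
    (Units.mk0 (rho : ℂ) rho_ne_zero) isPrimitiveRoot_rho ?_ ?_⟩
  · rw [Stubs.jfun_rho, map_zero]
  · exact ST_inv_discInv
  · rw [Stubs.jfun_rho]
    simpa using Stubs.ordAt_jfun_rho

theorem Jser_one_coeff_neg_one : (Jser 1).coeff (-1) = 1 := by
  rw [Jser, ModularCurve.qExpand_one_apply, ModularCurve.coeffEmb_coeff,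
    ModularCurve.coeff_jq_neg_one, map_one]

theorem Jser_one_coeff_of_lt {k : ℤ} (hk : k < -1) : (Jser 1).coeff k = 0 := by
  rw [Jser, ModularCurve.qExpand_one_apply, ModularCurve.coeffEmb_coeff,
    ModularCurve.coeff_jq_of_lt hk, map_zero]

theorem Jser_one_ne_zero : Jser 1 ≠ 0 := fun h => by
  have := Jser_one_coeff_neg_one
  rw [h] at this
  simp at this

theorem pointDatum_infty : ∃ V : Valuation (LN N) ℤᵐ⁰,
    IsPointDatum (Psi N) (jF N)⁻¹ V ModularGroup.T N := by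
  refine ⟨_, isPointDatum_of_expansion (C := Kbar) (Psi N) _ ModularGroup.T N
    (Nat.pos_of_ne_zero (NeZero.ne N)) (texpL N).toRingHom ?_ (zetaK N)⁻¹
    (isPrimitiveRoot_zetaK N).inv texpL_T_smul ?_⟩
  · intro a
    show texpL N (algebraMap Kbar (LN N) a) = _
    rw [AlgHom.commutes, ModularCurve.algebraMap_laurentSeries_eq_single]
    rfl
  · show (texpL N (Psi N (jF N)⁻¹)).order = _
    rw [texpL_Psi, map_inv₀]
    have h1 : phi1 N (jF N) = ModularCurve.qExpand Kbar N (Jser 1) := rfl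
    have h2 : ModularCurve.qExpand Kbar N (Jser 1) ≠ 0 := fun h =>
      Jser_one_ne_zero (ModularCurve.qExpand_injective (R := Kbar) (N := N) (by rw [h, map_zero]))
    have h3 : (ModularCurve.qExpand Kbar N (Jser 1))⁻¹ ≠ 0 := inv_ne_zero h2
    have h4 := HahnSeries.order_mul h2 h3
    rw [mul_inv_cancel₀ h2, HahnSeries.order_one, order_qExpand, order_Jser_one] at h4
    rw [h1]
    linarith

end Fermat.Agent.S24.B
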