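/-
S24 block B (helper216): the analytic deliverable.
-/
import Fermat.Agent.S24.B.Points

set_option autoImplicit false

namespace Fermat.Agent.S24.B

theorem nonempty_uniformization (N : ℕ) [NeZero N] : Nonempty (Uniformization N) :=
  ⟨{ L := LN N
     Ψ := Psi N
     isUniformization := isUniformization
     generic := pointDatum_generic
     atI := pointDatum_I
     atRho := pointDatum_rho
     atInfty := pointDatum_infty }⟩

end Fermat.Agent.S24.B
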