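/-
S24 block B, TASK S24-B13 (owner helper204).
Taylor expansion of a holomorphic function on `ℍ` at a point `τ₀`, in the disc coordinate
`w = (τ - τ₀) / (τ - conj τ₀)`.
-/
import Fermat.Agent.Lib.JExpansion
import Fermat.Agent.S24.JLocal
import Fermat.Agent.S24.Analytic.Defs

set_option autoImplicit false

namespace Fermat.Agent.S24.B

open UpperHalfPlane Complex Fermat.Agent.Lib.JExpansion
open scoped MatrixGroups Real Manifold ComplexConjugate

/-- The inverse Cayley map `w ↦ (τ₀ - conj τ₀ * w) / (1 - w)` from the unit disc to `ℍ`. -/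
noncomputable def cay (τ₀ : ℍ) (w : ℂ) : ℂ := ((τ₀ : ℂ) - conj (τ₀ : ℂ) * w) / (1 - w)

theorem one_sub_ne_zero {w : ℂ} (hw : ‖w‖ < 1) : 1 - w ≠ 0 := by
  intro h
  have : w = 1 := by linear_combination -h
  rw [this] at hw
  simp at hw

theorem cay_zero (τ₀ : ℍ) : cay τ₀ 0 = τ₀ := by simp [cay]

theorem cay_im (τ₀ : ℍ) {w : ℂ} (hw : ‖w‖ < 1) :
    (cay τ₀ w).im = τ₀.im * (1 - ‖w‖ ^ 2) / ‖1 - w‖ ^ 2 := by
  have h1 := one_sub_ne_zero hw
  have h2 : normSq (1 - w) ≠ 0 := by simpa [normSq_eq_zero] using h1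
  rw [cay, div_im, ← normSq_eq_norm_sq, ← normSq_eq_norm_sq]
  simp only [sub_im, sub_re, mul_im, mul_re, conj_re, conj_im, one_re, one_im, coe_im, coe_re,
    normSq_apply]
  simp only [normSq_apply, sub_re, one_re, sub_im, one_im] at h2
  field_simp
  ring

theorem cay_im_pos (τ₀ : ℍ) {w : ℂ} (hw : ‖w‖ < 1) : 0 < (cay τ₀ w).im := by
  rw [cay_im τ₀ hw]
  have h1 := one_sub_ne_zero hw
  have h3 : 0 < 1 - ‖w‖ ^ 2 := by nlinarith [norm_nonneg w]
  have h4 : 0 < ‖1 - w‖ ^ 2 := by positivity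
  exact div_pos (mul_pos τ₀.im_pos h3) h4

theorem hasDerivAt_cay (τ₀ : ℍ) {w : ℂ} (hw : ‖w‖ < 1) :
    HasDerivAt (cay τ₀) (((τ₀ : ℂ) - conj (τ₀ : ℂ)) / (1 - w) ^ 2) w := by
  have h1 := one_sub_ne_zero hw
  have hn : HasDerivAt (fun w : ℂ => (τ₀ : ℂ) - conj (τ₀ : ℂ) * w) (- conj (τ₀ : ℂ)) w := by
    simpa using ((hasDerivAt_id w).const_mul (conj (τ₀ : ℂ))).const_sub (τ₀ : ℂ)
  have hd : HasDerivAt (fun w : ℂ => 1 - w) (-1) w := by
    simpa using (hasDerivAt_id w).const_sub (1 : ℂ)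
  have := hn.div hd h1
  have e : ((τ₀ : ℂ) - conj (τ₀ : ℂ)) / (1 - w) ^ 2 =
      (-(starRingEnd ℂ) ↑τ₀ * (1 - w) - (↑τ₀ - (starRingEnd ℂ) ↑τ₀ * w) * -1) / (1 - w) ^ 2 := by
    congr 1
    ring
  rw [e]
  exact this

theorem analyticAt_cay (τ₀ : ℍ) {w : ℂ} (hw : ‖w‖ < 1) : AnalyticAt ℂ (cay τ₀) w := by
  have h : DifferentiableOn ℂ (cay τ₀) (Metric.ball 0 1) := fun z hz =>
    (hasDerivAt_cay τ₀ (by simpa using hz)).differentiableAt.differentiableWithinAt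
  exact h.analyticAt (Metric.isOpen_ball.mem_nhds (by simpa using hw))

theorem deriv_cay_zero_ne_zero (τ₀ : ℍ) : deriv (cay τ₀) 0 ≠ 0 := by
  rw [(hasDerivAt_cay τ₀ (w := 0) (by simp)).deriv]
  simp only [sub_zero, one_pow, div_one]
  intro h
  have h2 := congrArg Complex.im h
  simp only [sub_im, conj_im, coe_im, zero_im] at h2
  have := τ₀.im_pos
  linarith

/-- A function on `ℍ` read in the disc coordinate at `τ₀`. -/
noncomputable def disc (τ₀ : ℍ) (f : ℍ → ℂ) (w : ℂ) : ℂ := f (ofComplex (cay τ₀ w))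

theorem disc_eq_comp (τ₀ : ℍ) (f : ℍ → ℂ) :
    disc τ₀ f = (fun z : ℂ => f (ofComplex z)) ∘ cay τ₀ := rfl

theorem differentiableOn_disc (τ₀ : ℍ) {f : ℍ → ℂ} (hf : MDiff f) :
    DifferentiableOn ℂ (disc τ₀ f) (Metric.ball 0 1) := by
  intro w hw
  have hw' : ‖w‖ < 1 := by simpa using hw
  have h1 : DifferentiableAt ℂ (f ∘ ofComplex) (cay τ₀ w) :=
    (JLocal.analyticAt_comp_ofComplex hf ⟨cay τ₀ w, cay_im_pos τ₀ hw'⟩).differentiableAt
  exact (h1.comp w (hasDerivAt_cay τ₀ hw').differentiableAt).differentiableWithinAt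

/-- The Taylor series of `f` at `τ₀` in the disc coordinate. -/
noncomputable def tay (τ₀ : ℍ) (f : ℍ → ℂ) : PowerSeries ℂ := taylorPS (disc τ₀ f)

theorem ev_tay (τ₀ : ℍ) {f : ℍ → ℂ} (hf : MDiff f) {w : ℂ} (hw : ‖w‖ < 1) :
    Ev w (tay τ₀ f) (disc τ₀ f w) :=
  ev_taylorPS (differentiableOn_disc τ₀ hf) hw

theorem tay_add (τ₀ : ℍ) {f g : ℍ → ℂ} (hf : MDiff f) (hg : MDiff g) :
    tay τ₀ (f + g) = tay τ₀ f + tay τ₀ g :=
  (eq_taylorPS (f := disc τ₀ (f + g)) fun _ hw => (ev_tay τ₀ hf hw).add (ev_tay τ₀ hg hw)).symm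

theorem tay_mul (τ₀ : ℍ) {f g : ℍ → ℂ} (hf : MDiff f) (hg : MDiff g) :
    tay τ₀ (f * g) = tay τ₀ f * tay τ₀ g :=
  (eq_taylorPS (f := disc τ₀ (f * g)) fun _ hw => (ev_tay τ₀ hf hw).mul (ev_tay τ₀ hg hw)).symm

theorem tay_const (τ₀ : ℍ) (c : ℂ) : tay τ₀ (fun _ => c) = PowerSeries.C c := by
  refine (eq_taylorPS (f := disc τ₀ (fun _ => c)) fun w _ => ?_).symm
  unfold Ev
  have h := hasSum_ite_eq (0 : ℕ) c
  change HasSum _ c
  convert h using 2 with n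
  rw [PowerSeries.coeff_C]
  split_ifs with h1
  · simp [h1]
  · simp

theorem order_taylorPS {F : ℂ → ℂ} (hF : AnalyticAt ℂ F 0) :
    (taylorPS F).order = analyticOrderAt F 0 := by
  refine ENat.eq_of_forall_natCast_le_iff fun n => ?_
  rw [natCast_le_analyticOrderAt_iff_iteratedDeriv_eq_zero hF]
  constructor
  · intro h i hi
    have h1 : PowerSeries.coeff i (taylorPS F) = 0 :=
      PowerSeries.coeff_of_lt_order i (lt_of_lt_of_le (by exact_mod_cast hi) h)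
    rw [coeff_taylorPS] at h1
    have h2 : ((i.factorial : ℂ))⁻¹ ≠ 0 := inv_ne_zero (by exact_mod_cast i.factorial_ne_zero)
    exact (mul_eq_zero.mp h1).resolve_left h2
  · intro h
    refine PowerSeries.nat_le_order _ _ fun i hi => ?_
    rw [coeff_taylorPS, h i hi, mul_zero]

theorem order_tay (τ₀ : ℍ) {f : ℍ → ℂ} (hf : MDiff f) : (tay τ₀ f).order = ordAt τ₀ f := by
  have h0 : AnalyticAt ℂ (disc τ₀ f) 0 :=
    (differentiableOn_disc τ₀ hf).analyticAt (Metric.isOpen_ball.mem_nhds (by simp))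
  rw [tay, order_taylorPS h0, disc_eq_comp,
    analyticOrderAt_comp_of_deriv_ne_zero (analyticAt_cay τ₀ (by simp)) (deriv_cay_zero_ne_zero τ₀),
    cay_zero, ordAt]

theorem eq_zero_of_tay_eq_zero (τ₀ : ℍ) {f : ℍ → ℂ} (hf : MDiff f) (h : tay τ₀ f = 0) : f = 0 := by
  by_contra hne
  obtain ⟨w, hw⟩ : ∃ w, f w ≠ 0 := by
    by_contra hcon
    push Not at hcon
    exact hne (funext hcon)
  have h1 := order_tay τ₀ hf
  rw [h, PowerSeries.order_zero] at h1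
  exact JLocal.order_ne_top hf hw τ₀ h1.symm

end Fermat.Agent.S24.B
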